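import Fermat.Agent.S55.H713.UnitsFiltration

/-!
# Hilbert's theorem 90 for cyclic extensions, multiplicative form
-/

set_option autoImplicit false
set_option linter.unusedSectionVars false

namespace Fermat.Agent.S55.H713

open groupCohomology

variable {F E : Type*} [Field F] [Field E] [Algebra F E] [FiniteDimensional F E]

/-- partial norms `∏_{i<j} σ^i x`. -/
noncomputable def partNorm (σ : Gal(E/F)) (x : Eˣ) (j : ℕ) : Eˣ :=
  ∏ i ∈ Finset.range j, actU (σ ^ i) x

lemma partNorm_add (σ : Gal(E/F)) (x : Eˣ) (j l : ℕ) :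
    partNorm σ x (j + l) = partNorm σ x j * actU (σ ^ j) (partNorm σ x l) := by
  induction l with
  | zero => simp [partNorm]
  | succ l ih =>
    rw [← add_assoc, partNorm, Finset.prod_range_succ, ← partNorm, ih]
    have : partNorm σ x (l + 1) = partNorm σ x l * actU (σ ^ l) x := by
      rw [partNorm, Finset.prod_range_succ]; rfl
    rw [this, map_mul, ← actU_mul, ← pow_add, mul_assoc]

lemma partNorm_orderOf (σ : Gal(E/F)) (hσ : ∀ g, g ∈ Subgroup.zpowers σ) (x : Eˣ) :
    partNorm σ x (orderOf σ) = normU Gal(E/F) x := by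
  classical
  rw [normU_apply, partNorm, ← IsCyclic.image_range_orderOf hσ,
    Finset.prod_image]
  intro i hi j hj hij
  exact pow_injOn_Iio_orderOf (by simpa using hi) (by simpa using hj) hij

lemma partNorm_add_mul_orderOf (σ : Gal(E/F)) (hσ : ∀ g, g ∈ Subgroup.zpowers σ) (x : Eˣ)
    (hx : normU Gal(E/F) x = 1) (j q : ℕ) :
    partNorm σ x (j + q * orderOf σ) = partNorm σ x j := by
  induction q with
  | zero => simp
  | succ q ih =>
    have : j + (q + 1) * orderOf σ = (j + q * orderOf σ) + orderOf σ := by ring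
    rw [this, partNorm_add, partNorm_orderOf σ hσ, hx, map_one, mul_one, ih]

lemma partNorm_congr (σ : Gal(E/F)) (hσ : ∀ g, g ∈ Subgroup.zpowers σ) (x : Eˣ)
    (hx : normU Gal(E/F) x = 1) {j l : ℕ} (h : σ ^ j = σ ^ l) :
    partNorm σ x j = partNorm σ x l := by
  wlog hjl : j ≤ l generalizing j l
  · exact (this h.symm (le_of_not_ge hjl)).symm
  rw [pow_eq_pow_iff_modEq] at h
  obtain ⟨q, hq⟩ := (Nat.modEq_iff_dvd' hjl).1 h
  have : l = j + q * orderOf σ := by
    have := Nat.sub_add_cancel hjl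
    rw [hq] at this
    rw [← this]; ring
  rw [this, partNorm_add_mul_orderOf σ hσ x hx]

lemma smul_units_eq_actU (g : Gal(E/F)) (y : Eˣ) : g • y = actU g y := by
  ext
  rfl

/-- **Hilbert 90**, cyclic form. -/
theorem hilbert90_cyclic (σ : Gal(E/F)) (hσ : ∀ g, g ∈ Subgroup.zpowers σ) (x : Eˣ)
    (hx : normU Gal(E/F) x = 1) : ∃ y : Eˣ, sigmaSubOne σ y = x := by
  have hpow : ∀ g : Gal(E/F), ∃ j : ℕ, σ ^ j = g := by
    intro g
    have h := hσ g
    rw [← (isOfFinOrder_of_finite σ).mem_powers_iff_mem_zpowers] at h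
    exact (Submonoid.mem_powers_iff _ _).1 h
  choose j hj using hpow
  have hcoc : IsMulCocycle₁ (fun g : Gal(E/F) => partNorm σ x (j g)) := by
    intro g h
    have h1 : partNorm σ x (j (g * h)) = partNorm σ x (j g + j h) :=
      partNorm_congr σ hσ x hx (by rw [hj, pow_add, hj, hj])
    show partNorm σ x (j (g * h)) = g • partNorm σ x (j h) * partNorm σ x (j g)
    rw [h1, partNorm_add, hj, smul_units_eq_actU, mul_comm]
  obtain ⟨y, hy⟩ := isMulCoboundary₁_of_isMulCocycle₁_of_aut_to_units _ hcoc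
  refine ⟨y, ?_⟩
  have h1 : σ • y / y = partNorm σ x (j σ) := hy σ
  have h2 : partNorm σ x (j σ) = partNorm σ x 1 :=
    partNorm_congr σ hσ x hx (by rw [hj, pow_one])
  rw [h2] at h1
  rw [sigmaSubOne_apply, ← smul_units_eq_actU, h1]
  simp [partNorm, actU_one]

end Fermat.Agent.S55.H713
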