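import Mathlib

/-!
# The normalized valuation `Eˣ → ℤ` of a discrete valuation subring
-/

set_option autoImplicit false
set_option linter.unusedSectionVars false

namespace Fermat.Agent.S55.H713

variable {E : Type*} [Field E] (O : ValuationSubring E) [IsDiscreteValuationRing O]

/-- The units of `O` inside `Eˣ`. -/
def unitsIncl (O : ValuationSubring E) : Oˣ →* Eˣ := Units.map (O.subtype : O →* E)

lemma coe_unitsIncl (u : Oˣ) : ((unitsIncl O u : Eˣ) : E) = ((u : O) : E) := rfl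

lemma unitsIncl_injective : Function.Injective (unitsIncl O) := by
  intro u v h
  have : ((u : O) : E) = ((v : O) : E) := congrArg Units.val h
  exact Units.ext (Subtype.ext this)

section

variable {O} {ϖ : O} (hϖ : Irreducible ϖ)
include hϖ

lemma coe_unif_ne_zero : (ϖ : E) ≠ 0 := fun h => hϖ.ne_zero (Subtype.ext h)

lemma exists_ord (x : Eˣ) : ∃ k : ℤ, ∃ u : Oˣ, (x : E) = ((u : O) : E) * (ϖ : E) ^ k := by
  obtain ⟨k, u, h⟩ := IsDiscreteValuationRing.exists_units_eq_smul_zpow_of_irreducible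
    (K := E) hϖ x.ne_zero
  refine ⟨k, u, ?_⟩
  rw [h, Units.smul_def, Algebra.smul_def]
  rfl

lemma not_isUnit_pow {j : ℕ} (hj : 0 < j) : ¬ IsUnit (ϖ ^ j) := by
  rw [isUnit_pow_iff hj.ne']
  exact hϖ.not_isUnit

private lemma ord_unique_aux {k l : ℤ} {u u' : Oˣ} (hkl : k < l)
    (h : ((u : O) : E) * (ϖ : E) ^ k = ((u' : O) : E) * (ϖ : E) ^ l) : False := by
  obtain ⟨j, hj⟩ := Int.eq_ofNat_of_zero_le (sub_nonneg.2 hkl.le)
  have hj0 : 0 < j := by
    rcases Nat.eq_zero_or_pos j with h0 | h0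
    · subst h0; simp at hj; omega
    · exact h0
  have hl : l = k + j := by omega
  have hϖ0 := coe_unif_ne_zero hϖ
  rw [hl, zpow_add₀ hϖ0, zpow_natCast] at h
  have hk0 : (ϖ : E) ^ k ≠ 0 := zpow_ne_zero _ hϖ0
  have h2 : ((u : O) : E) = ((u' : O) : E) * (ϖ : E) ^ j := by
    apply mul_right_cancel₀ hk0
    rw [h]; ring
  have h3 : (u : O) = (u' : O) * ϖ ^ j := Subtype.ext (by simpa using h2)
  have h4 : ϖ ^ j = ((u'⁻¹ * u : Oˣ) : O) := by
    rw [Units.val_mul, h3, ← mul_assoc, Units.inv_mul, one_mul]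
  exact not_isUnit_pow hϖ hj0 (h4 ▸ (u'⁻¹ * u).isUnit)

lemma ord_unique {k l : ℤ} {u u' : Oˣ}
    (h : ((u : O) : E) * (ϖ : E) ^ k = ((u' : O) : E) * (ϖ : E) ^ l) : k = l := by
  rcases lt_trichotomy k l with hkl | hkl | hkl
  · exact (ord_unique_aux hϖ hkl h).elim
  · exact hkl
  · exact (ord_unique_aux hϖ hkl h.symm).elim

/-- The order of a nonzero element. -/
noncomputable def ord (x : Eˣ) : ℤ := (exists_ord hϖ x).choose

lemma ord_eq {x : Eˣ} {k : ℤ} {u : Oˣ} (h : (x : E) = ((u : O) : E) * (ϖ : E) ^ k) :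
    ord hϖ x = k := by
  obtain ⟨u', hu'⟩ := (exists_ord hϖ x).choose_spec
  exact (ord_unique hϖ (h.symm.trans hu')).symm

lemma ord_spec (x : Eˣ) : ∃ u : Oˣ, (x : E) = ((u : O) : E) * (ϖ : E) ^ (ord hϖ x) :=
  (exists_ord hϖ x).choose_spec

lemma ord_mul (x y : Eˣ) : ord hϖ (x * y) = ord hϖ x + ord hϖ y := by
  obtain ⟨u, hu⟩ := ord_spec hϖ x
  obtain ⟨v, hv⟩ := ord_spec hϖ y
  apply ord_eq hϖ (u := u * v)
  rw [Units.val_mul, hu, hv, zpow_add₀ (coe_unif_ne_zero hϖ), Units.val_mul, Subring.coe_mul]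
  ring

lemma ord_one : ord hϖ (1 : Eˣ) = 0 :=
  ord_eq hϖ (u := 1) (by simp)

/-- The order as an additive homomorphism. -/
noncomputable def ordHom : Additive Eˣ →+ ℤ where
  toFun x := ord hϖ x.toMul
  map_zero' := ord_one hϖ
  map_add' x y := ord_mul hϖ x.toMul y.toMul

lemma ordHom_apply (x : Eˣ) : ordHom hϖ (Additive.ofMul x) = ord hϖ x := rfl

/-- the uniformizer as a unit of `E`. -/
def unifUnit : Eˣ := Units.mk0 (ϖ : E) (coe_unif_ne_zero hϖ)

lemma ord_unifUnit : ord hϖ (unifUnit hϖ) = 1 :=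
  ord_eq hϖ (u := 1) (by simp [unifUnit])

lemma ordHom_surjective : Function.Surjective (ordHom hϖ) := by
  intro k
  refine ⟨k • Additive.ofMul (unifUnit hϖ), ?_⟩
  rw [map_zsmul, ordHom_apply, ord_unifUnit, smul_eq_mul, mul_one]

lemma ord_eq_zero_iff (x : Eˣ) : ord hϖ x = 0 ↔ x ∈ (unitsIncl O).range := by
  constructor
  · intro h
    obtain ⟨u, hu⟩ := ord_spec hϖ x
    rw [h, zpow_zero, mul_one] at hu
    exact ⟨u, Units.ext hu.symm⟩
  · rintro ⟨u, rfl⟩
    exact ord_eq hϖ (u := u) (by rw [zpow_zero, mul_one, coe_unitsIncl])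

end

end Fermat.Agent.S55.H713
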