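import Fermat.Agent.S55.H713.UnitsHerbrand
import Fermat.Agent.S55.H713.Ord
import Fermat.Agent.S55.H713.Hilbert90

/-!
# The local norm index theorem for cyclic extensions

`E/F` a finite cyclic Galois extension, `O ⊆ E` a Galois-stable valuation subring which is a
complete discrete valuation ring with finite residue field.  Then
`[Fˣ : N_{E/F} Eˣ] = [E : F]`.
-/

set_option autoImplicit false
set_option linter.unusedSectionVars false
set_option linter.style.haveILetI false

open IsLocalRing

namespace Fermat.Agent.S55.H713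

open Fermat.Agent.S55.Herbrand

variable {F E : Type*} [Field F] [Field E] [Algebra F E] [FiniteDimensional F E] [IsGalois F E]
variable {O : ValuationSubring E} [IsDiscreteValuationRing O]

section Ord

variable (hstab : GalStable F O) {ϖ : O} (hϖ : Irreducible ϖ)

include hstab in
lemma unitsIncl_actU (g : Gal(E/F)) (u : Oˣ) :
    letI := galAction hstab
    unitsIncl O (actU g u) = actU g (unitsIncl O u) := by
  ext
  rfl

include hstab in
lemma unitsIncl_sigmaSubOne (σ : Gal(E/F)) (u : Oˣ) :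
    letI := galAction hstab
    unitsIncl O (sigmaSubOne σ u) = sigmaSubOne σ (unitsIncl O u) := by
  letI := galAction hstab
  rw [sigmaSubOne_apply, sigmaSubOne_apply, map_div, unitsIncl_actU hstab]

include hstab in
lemma unitsIncl_normU (u : Oˣ) :
    letI := galAction hstab
    unitsIncl O (normU Gal(E/F) u) = normU Gal(E/F) (unitsIncl O u) := by
  letI := galAction hstab
  rw [normU_apply, normU_apply, map_prod]
  exact Finset.prod_congr rfl (fun g _ => unitsIncl_actU hstab g u)

include hstab in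
/-- The order is Galois invariant. -/
lemma ord_actU (g : Gal(E/F)) (x : Eˣ) : ord hϖ (actU g x) = ord hϖ x := by
  letI := galAction hstab
  obtain ⟨u, hu⟩ := ord_spec hϖ x
  have hirr : Irreducible (g • ϖ) :=
    (MulEquiv.irreducible_iff (MulSemiringAction.toRingEquiv Gal(E/F) O g)).2 hϖ
  obtain ⟨w, hw⟩ := IsDiscreteValuationRing.associated_of_irreducible O hϖ hirr
  have hw' : g (ϖ : E) = (ϖ : E) * ((w : O) : E) := by
    have := congrArg Subtype.val hw
    have h2 : ((g • ϖ : O) : E) = g (ϖ : E) := rfl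
    rw [← h2, ← this]
    rfl
  have hwk : ((unitsIncl O (w ^ ord hϖ x) : Eˣ) : E) = ((w : O) : E) ^ ord hϖ x := by
    rw [map_zpow, Units.val_zpow_eq_zpow_val, coe_unitsIncl]
  apply ord_eq hϖ (u := actU g u * w ^ ord hϖ x)
  have e1 : ((actU g x : Eˣ) : E) = g (x : E) := rfl
  have e2 : (((actU g u * w ^ ord hϖ x : Oˣ) : O) : E) =
      g ((u : O) : E) * ((w : O) : E) ^ ord hϖ x := by
    rw [← coe_unitsIncl, map_mul, Units.val_mul, hwk]
    rfl
  rw [e1, e2, hu, map_mul, map_zpow₀, hw', mul_zpow]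
  ring

lemma ord_prod {ι : Type*} (s : Finset ι) (f : ι → Eˣ) :
    ord hϖ (∏ i ∈ s, f i) = ∑ i ∈ s, ord hϖ (f i) := by
  classical
  induction s using Finset.induction_on with
  | empty => simp [ord_one]
  | insert a s ha ih => rw [Finset.prod_insert ha, Finset.sum_insert ha, ord_mul, ih]

lemma ord_div (x y : Eˣ) : ord hϖ (x / y) = ord hϖ x - ord hϖ y := by
  have := ord_mul hϖ (x / y) y
  rw [div_mul_cancel] at this
  omega

include hstab in
lemma ord_sigmaSubOne (σ : Gal(E/F)) (x : Eˣ) : ord hϖ (sigmaSubOne σ x) = 0 := by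
  rw [sigmaSubOne_apply, ord_div, ord_actU hstab hϖ, sub_self]

include hstab in
lemma ord_normU (x : Eˣ) :
    ord hϖ (normU Gal(E/F) x) = (Fintype.card Gal(E/F)) • ord hϖ x := by
  rw [normU_apply, ord_prod]
  simp [ord_actU hstab hϖ, Finset.card_univ]

lemma ordHom_ker : (ordHom hϖ).ker = (MonoidHom.toAdditive (unitsIncl O)).range := by
  ext x
  rw [AddMonoidHom.mem_ker, AddMonoidHom.mem_range]
  change ord hϖ x.toMul = 0 ↔ _
  rw [ord_eq_zero_iff]
  constructor
  · rintro ⟨u, hu⟩
    exact ⟨Additive.ofMul u, congrArg Additive.ofMul hu⟩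
  · rintro ⟨u, hu⟩
    exact ⟨u.toMul, congrArg Additive.toMul hu⟩

end Ord

variable [IsAdicComplete (maximalIdeal O) O] [Finite (ResidueField O)]

/-- **The Herbrand quotient of `Eˣ`** is `[E : F]`. -/
theorem q_field_units (hstab : GalStable F O) (σ : Gal(E/F))
    (hσ : ∀ g, g ∈ Subgroup.zpowers σ) :
    IsDefined (sigmaAdd σ : Additive Eˣ →+ Additive Eˣ) (normAdd E Gal(E/F)) ∧
      q (sigmaAdd σ : Additive Eˣ →+ Additive Eˣ) (normAdd E Gal(E/F)) =
        Fintype.card Gal(E/F) := by
  letI := galAction hstab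
  obtain ⟨ϖ, hϖ⟩ := IsDiscreteValuationRing.exists_irreducible O
  obtain ⟨hdef, hq⟩ := q_units hstab σ hσ
  have hn : Fintype.card Gal(E/F) ≠ 0 := Fintype.card_ne_zero
  obtain ⟨hdefZ, hqZ⟩ := q_int (Fintype.card Gal(E/F)) hn
  have hfg : ∀ b, (sigmaAdd σ : Additive Eˣ →+ Additive Eˣ) (normAdd E Gal(E/F) b) = 0 :=
    sigmaAdd_normAdd σ
  have hgf : ∀ b, normAdd E Gal(E/F) ((sigmaAdd σ : Additive Eˣ →+ Additive Eˣ) b) = 0 :=
    normAdd_sigmaAdd σ
  have hi : Function.Injective (MonoidHom.toAdditive (unitsIncl O)) :=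
    fun a b h => unitsIncl_injective (O := O) h
  have hp : Function.Surjective (ordHom hϖ) := ordHom_surjective hϖ
  have hex := ordHom_ker hϖ
  have hif : ∀ a : Additive Oˣ, MonoidHom.toAdditive (unitsIncl O) (sigmaAdd σ a) =
      (sigmaAdd σ : Additive Eˣ →+ Additive Eˣ) (MonoidHom.toAdditive (unitsIncl O) a) :=
    fun a => congrArg Additive.ofMul (unitsIncl_sigmaSubOne hstab σ a.toMul)
  have hig : ∀ a : Additive Oˣ, MonoidHom.toAdditive (unitsIncl O) (normAdd O Gal(E/F) a) =
      normAdd E Gal(E/F) (MonoidHom.toAdditive (unitsIncl O) a) :=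
    fun a => congrArg Additive.ofMul (unitsIncl_normU hstab a.toMul)
  have hpf : ∀ b : Additive Eˣ, ordHom hϖ ((sigmaAdd σ : Additive Eˣ →+ Additive Eˣ) b) =
      (0 : ℤ →+ ℤ) (ordHom hϖ b) := fun b => ord_sigmaSubOne hstab hϖ σ b.toMul
  have hpg : ∀ b : Additive Eˣ, ordHom hϖ (normAdd E Gal(E/F) b) =
      (Fintype.card Gal(E/F) • AddMonoidHom.id ℤ) (ordHom hϖ b) :=
    fun b => ord_normU hstab hϖ b.toMul
  refine ⟨isDefined_mid hfg hgf hi hp hex hif hig hpf hpg hdef hdefZ, ?_⟩
  rw [q_mul_of_exact hfg hgf hi hp hex hif hig hpf hpg hdef hdefZ, hq, hqZ, one_mul]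


/-! ### From the Herbrand quotient to the norm index -/

omit [IsAdicComplete (maximalIdeal O) O] [Finite (ResidueField O)] [IsDiscreteValuationRing O] in
lemma fixed_of_generator {σ : Gal(E/F)} (hσ : ∀ g, g ∈ Subgroup.zpowers σ) {x : E}
    (hx : σ x = x) (g : Gal(E/F)) : g x = x := by
  obtain ⟨j, rfl⟩ := exists_pow_eq_of_generator hσ g
  induction j with
  | zero => simp
  | succ j ih => rw [pow_succ, AlgEquiv.mul_apply, hx, ih]

/-- The inclusion `Fˣ → Eˣ`. -/
def baseIncl (F E : Type*) [Field F] [Field E] [Algebra F E] : Fˣ →* Eˣ :=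
  Units.map (algebraMap F E : F →* E)

omit [FiniteDimensional F E] [IsGalois F E] in
lemma baseIncl_injective : Function.Injective (baseIncl F E) := by
  intro a b h
  have : algebraMap F E (a : F) = algebraMap F E (b : F) := congrArg Units.val h
  exact Units.ext ((algebraMap F E).injective this)

/-- The norm on units. -/
noncomputable def normUnits (F E : Type*) [Field F] [Field E] [Algebra F E] : Eˣ →* Fˣ :=
  Units.map (Algebra.norm F : E →* F)

lemma baseIncl_normUnits (y : Eˣ) : baseIncl F E (normUnits F E y) = normU Gal(E/F) y := by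
  ext
  rw [coe_normU]
  change algebraMap F E (Algebra.norm F (y : E)) = _
  rw [Algebra.norm_eq_prod_automorphisms]
  rfl

lemma ker_sigmaSubOne {σ : Gal(E/F)} (hσ : ∀ g, g ∈ Subgroup.zpowers σ) :
    (sigmaSubOne σ : Eˣ →* Eˣ).ker = (baseIncl F E).range := by
  ext x
  rw [MonoidHom.mem_ker, MonoidHom.mem_range, sigmaSubOne_apply, div_eq_one]
  constructor
  · intro h
    have hx : σ (x : E) = x := congrArg Units.val h
    have hfix := fixed_of_generator hσ hx
    have hbot : (x : E) ∈ (⊥ : IntermediateField F E) := (IsGalois.mem_bot_iff_fixed _).2 hfix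
    obtain ⟨y, hy⟩ := IntermediateField.mem_bot.1 hbot
    have hy0 : y ≠ 0 := by
      rintro rfl
      rw [map_zero] at hy
      exact x.ne_zero hy.symm
    exact ⟨Units.mk0 y hy0, Units.ext hy⟩
  · rintro ⟨y, rfl⟩
    ext
    change σ (algebraMap F E (y : F)) = algebraMap F E (y : F)
    exact σ.commutes _

lemma range_normU : (normU Gal(E/F) : Eˣ →* Eˣ).range =
    (normUnits F E).range.map (baseIncl F E) := by
  ext x
  rw [MonoidHom.mem_range, Subgroup.mem_map]
  constructor
  · rintro ⟨y, rfl⟩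
    exact ⟨normUnits F E y, ⟨y, rfl⟩, baseIncl_normUnits y⟩
  · rintro ⟨_, ⟨y, rfl⟩, rfl⟩
    exact ⟨y, (baseIncl_normUnits y).symm⟩

/-- **Local norm index theorem** (cyclic case): for a finite cyclic Galois extension `E/F` and a
Galois-stable valuation subring `O ⊆ E` which is a complete discrete valuation ring with finite
residue field, the norm group `N_{E/F}(Eˣ)` has index `[E : F]` in `Fˣ`. -/
theorem norm_index_eq_finrank (hstab : GalStable F O) [IsCyclic Gal(E/F)] :
    (normUnits F E).range.index = Module.finrank F E := by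
  obtain ⟨σ, hσ⟩ := IsCyclic.exists_generator (α := Gal(E/F))
  obtain ⟨hdef, hq⟩ := q_field_units hstab σ hσ
  -- Hilbert 90
  have h90 : hIndex (normAdd E Gal(E/F)) (sigmaAdd σ : Additive Eˣ →+ Additive Eˣ) = 1 := by
    unfold hIndex
    rw [AddSubgroup.relIndex_eq_one]
    intro x hx
    have hx' : normU Gal(E/F) x.toMul = 1 := by
      have := AddMonoidHom.mem_ker.1 hx
      exact congrArg Additive.toMul this
    obtain ⟨y, hy⟩ := hilbert90_cyclic σ hσ x.toMul hx'
    exact ⟨Additive.ofMul y, congrArg Additive.ofMul hy⟩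
  have hidx : hIndex (sigmaAdd σ : Additive Eˣ →+ Additive Eˣ) (normAdd E Gal(E/F)) =
      Fintype.card Gal(E/F) := by
    unfold q at hq
    rw [h90] at hq
    have : ((hIndex (sigmaAdd σ : Additive Eˣ →+ Additive Eˣ) (normAdd E Gal(E/F)) : ℕ) : ℚ) =
        (Fintype.card Gal(E/F) : ℚ) := by simpa using hq
    exact_mod_cast this
  -- translate to subgroups of `Eˣ`
  have hker : (sigmaAdd σ : Additive Eˣ →+ Additive Eˣ).ker =
      Subgroup.toAddSubgroup (sigmaSubOne σ : Eˣ →* Eˣ).ker := by
    ext x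
    rw [AddMonoidHom.mem_ker]
    change _ ↔ x.toMul ∈ (sigmaSubOne σ : Eˣ →* Eˣ).ker
    rw [MonoidHom.mem_ker]
    exact ⟨fun h => congrArg Additive.toMul h, fun h => congrArg Additive.ofMul h⟩
  have hrange : (normAdd E Gal(E/F)).range =
      Subgroup.toAddSubgroup (normU Gal(E/F) : Eˣ →* Eˣ).range := by
    ext x
    rw [AddMonoidHom.mem_range]
    change _ ↔ x.toMul ∈ (normU Gal(E/F) : Eˣ →* Eˣ).range
    rw [MonoidHom.mem_range]
    constructor
    · rintro ⟨y, hy⟩; exact ⟨y.toMul, congrArg Additive.toMul hy⟩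
    · rintro ⟨y, hy⟩; exact ⟨Additive.ofMul y, congrArg Additive.ofMul hy⟩
  unfold hIndex at hidx
  rw [hker, hrange, Subgroup.relIndex_toAddSubgroup, ker_sigmaSubOne hσ, range_normU,
    MonoidHom.range_eq_map (baseIncl F E),
    Subgroup.relIndex_map_map_of_injective _ _ baseIncl_injective,
    Subgroup.relIndex_top_right] at hidx
  rw [hidx, ← Nat.card_eq_fintype_card, IsGalois.card_aut_eq_finrank]

end Fermat.Agent.S55.H713
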