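import Mathlib

/-!
# Successive approximation in a complete filtered commutative group

Let `V` be a commutative group with a decreasing, separated, complete filtration `W k` by
subgroups, and let `f g : V →* V` with `f ∘ g = 1`, `g` preserving the filtration.  If the
sequence `g, f` is exact on every graded piece `W k / W (k+1)`, then it is exact on `W 0`.
-/

set_option autoImplicit false

namespace Fermat.Agent.S55.H713

variable {V : Type*} [CommGroup V]

/-- The recursive data of the successive approximation. -/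
private noncomputable def approxSeq (W : ℕ → Subgroup V) (f g : V →* V)
    (hfg : ∀ u, f (g u) = 1)
    (hgr : ∀ k, ∀ u ∈ W k, f u ∈ W (k + 1) → ∃ w ∈ W k, u / g w ∈ W (k + 1))
    (u : V) (hu0 : u ∈ W 0) (hu : f u = 1) :
    (k : ℕ) → { p : V × V // p.1 ∈ W k ∧ f p.1 = 1 ∧ p.2 ∈ W k ∧ p.1 / g p.2 ∈ W (k + 1) }
  | 0 =>
    let h := hgr 0 u hu0 (by rw [hu]; exact one_mem _)
    ⟨(u, h.choose), hu0, hu, h.choose_spec.1, h.choose_spec.2⟩
  | k + 1 =>
    let prev := approxSeq W f g hfg hgr u hu0 hu k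
    let u' := prev.1.1 / g prev.1.2
    have hu' : u' ∈ W (k + 1) := prev.2.2.2.2
    have hfu' : f u' = 1 := by
      simp only [u', map_div, hfg, prev.2.2.1, div_one]
    let h := hgr (k + 1) u' hu' (by rw [hfu']; exact one_mem _)
    ⟨(u', h.choose), hu', hfu', h.choose_spec.1, h.choose_spec.2⟩

/-- **Successive approximation**: exactness on graded pieces implies exactness. -/
theorem exists_eq_of_filtration (W : ℕ → Subgroup V) (f g : V →* V)
    (hsep : ∀ u, (∀ k, u ∈ W k) → u = 1)
    (hcomplete : ∀ w : ℕ → V, (∀ i, w i ∈ W i) →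
      ∃ y ∈ W 0, ∀ k, y / ∏ i ∈ Finset.range k, w i ∈ W k)
    (hgW : ∀ k, ∀ u ∈ W k, g u ∈ W k)
    (hfg : ∀ u, f (g u) = 1)
    (hgr : ∀ k, ∀ u ∈ W k, f u ∈ W (k + 1) → ∃ w ∈ W k, u / g w ∈ W (k + 1))
    (u : V) (hu0 : u ∈ W 0) (hu : f u = 1) : ∃ y ∈ W 0, g y = u := by
  classical
  set s := approxSeq W f g hfg hgr u hu0 hu with hs
  -- the sequences
  let us : ℕ → V := fun k => (s k).1.1
  let ws : ℕ → V := fun k => (s k).1.2
  have hws : ∀ k, ws k ∈ W k := fun k => (s k).2.2.2.1
  have hus : ∀ k, us k ∈ W k := fun k => (s k).2.1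
  have hu0' : us 0 = u := rfl
  have hstep : ∀ k, us (k + 1) = us k / g (ws k) := fun k => rfl
  have hprod : ∀ k, u / ∏ i ∈ Finset.range k, g (ws i) = us k := by
    intro k
    induction k with
    | zero => simp [hu0']
    | succ k ih =>
      rw [Finset.prod_range_succ, hstep, ← ih, div_div]
  obtain ⟨y, hy0, hy⟩ := hcomplete ws hws
  refine ⟨y, hy0, ?_⟩
  have key : ∀ k, u / g y ∈ W k := by
    intro k
    have h1 : g (y / ∏ i ∈ Finset.range k, ws i) ∈ W k := hgW k _ (hy k)
    rw [map_div, map_prod] at h1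
    have h2 : u / ∏ i ∈ Finset.range k, g (ws i) ∈ W k := by rw [hprod]; exact hus k
    have : u / g y = (u / ∏ i ∈ Finset.range k, g (ws i)) /
        (g y / ∏ i ∈ Finset.range k, g (ws i)) := by
      rw [div_div_div_cancel_right]
    rw [this]
    exact (W k).div_mem h2 h1
  have := hsep _ key
  exact (div_eq_one.mp this).symm

end Fermat.Agent.S55.H713
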