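import Fermat.Agent.S55.H713.UnitsFiltration

/-!
# Exactness of `σ - 1` and the norm on `W 0 = 1 + M`
-/

set_option autoImplicit false
set_option linter.unusedSectionVars false

open IsLocalRing

namespace Fermat.Agent.S55.H713

variable {O : Type*} [CommRing O] [IsDomain O] [IsLocalRing O]
variable {G : Type*} [Group G] [Fintype G] [MulSemiringAction G O]
variable {σ : G} {π : O} {M : AddSubgroup O}

lemma eq_zero_of_forall_mem_pow [IsHausdorff (maximalIdeal O) O] (x : O)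
    (hx : ∀ n, x ∈ maximalIdeal O ^ n) : x = 0 := by
  apply IsHausdorff.haus (inferInstance : IsHausdorff (maximalIdeal O) O) x
  intro n
  rw [SModEq.zero, smul_eq_mul, Ideal.mul_top]
  exact hx n

lemma exists_limit [IsPrecomplete (maximalIdeal O) O] (x : ℕ → O)
    (hx : ∀ m n, m ≤ n → x n - x m ∈ maximalIdeal O ^ m) :
    ∃ L : O, ∀ n, L - x n ∈ maximalIdeal O ^ n := by
  obtain ⟨L, hL⟩ := IsPrecomplete.prec (inferInstance : IsPrecomplete (maximalIdeal O) O)
    (f := x) (by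
      intro m n hmn
      rw [SModEq.sub_mem, smul_eq_mul, Ideal.mul_top]
      have := hx m n hmn
      have h2 : x m - x n = -(x n - x m) := by ring
      rw [h2]; exact neg_mem this)
  refine ⟨L, fun n => ?_⟩
  have := hL n
  rw [SModEq.sub_mem, smul_eq_mul, Ideal.mul_top] at this
  have h2 : L - x n = -(x n - L) := by ring
  rw [h2]; exact neg_mem this

namespace IsGoodLattice

variable (h : IsGoodLattice σ π M)
include h

/-- Expansion of a product `∏ (1 + x g)` modulo `lat (k+1)`. -/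
lemma prod_one_add (k : ℕ) (x : G → O) (hx : ∀ g, x g ∈ lat π M k) (s : Finset G) :
    (∏ g ∈ s, (1 + x g)) - 1 - ∑ g ∈ s, x g ∈ lat π M (k + 1) ∧
      (∏ g ∈ s, (1 + x g)) - 1 ∈ lat π M k := by
  classical
  induction s using Finset.induction_on with
  | empty => simp
  | insert a s ha ih =>
    obtain ⟨ih1, ih2⟩ := ih
    rw [Finset.prod_insert ha, Finset.sum_insert ha]
    constructor
    · have : (1 + x a) * ∏ g ∈ s, (1 + x g) - 1 - (x a + ∑ g ∈ s, x g) =
          ((∏ g ∈ s, (1 + x g)) - 1 - ∑ g ∈ s, x g) + x a * ((∏ g ∈ s, (1 + x g)) - 1) := by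
        ring
      rw [this]
      exact (lat π M (k + 1)).add_mem ih1 (h.lat_mul_self (hx a) ih2)
    · have : (1 + x a) * ∏ g ∈ s, (1 + x g) - 1 =
          ((∏ g ∈ s, (1 + x g)) - 1) + x a + x a * ((∏ g ∈ s, (1 + x g)) - 1) := by
        ring
      rw [this]
      exact (lat π M k).add_mem ((lat π M k).add_mem ih2 (hx a))
        (h.lat_mul_lat_left (hx a) ih2)

lemma W_sep [IsHausdorff (maximalIdeal O) O] (u : Oˣ) (hu : ∀ k, u ∈ h.W k) : u = 1 := by
  have : (u : O) - 1 = 0 :=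
    eq_zero_of_forall_mem_pow _ (fun n => h.lat_le_pow n _ (hu n))
  ext
  simpa [sub_eq_zero] using this

lemma W_complete [IsPrecomplete (maximalIdeal O) O] (w : ℕ → Oˣ) (hw : ∀ i, w i ∈ h.W i) :
    ∃ y ∈ h.W 0, ∀ k, y / ∏ i ∈ Finset.range k, w i ∈ h.W k := by
  set P : ℕ → Oˣ := fun k => ∏ i ∈ Finset.range k, w i with hP
  have hP0 : ∀ k, P k ∈ h.W 0 := fun k =>
    Subgroup.prod_mem _ (fun i _ => h.W_le_zero i (hw i))
  have hstep : ∀ k, ((P (k + 1) : Oˣ) : O) - P k ∈ lat π M k := by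
    intro k
    have : ((P (k + 1) : Oˣ) : O) - P k = ((w k : O) - 1) * (P k : O) := by
      simp only [hP, Finset.prod_range_succ, Units.val_mul]; ring
    rw [this]
    exact h.lat_mul_one_add (hw k) (h.sub_one_mem_M (hP0 k))
  have hdiff : ∀ m n, m ≤ n → ((P n : Oˣ) : O) - P m ∈ lat π M m := by
    intro m n hmn
    induction n, hmn using Nat.le_induction with
    | base => simp
    | succ n hmn ih =>
      have : ((P (n + 1) : Oˣ) : O) - P m = (((P (n + 1) : Oˣ) : O) - P n) +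
          (((P n : Oˣ) : O) - P m) := by ring
      rw [this]
      exact (lat π M m).add_mem (h.lat_antitone hmn (hstep n)) ih
  obtain ⟨L, hL⟩ := exists_limit (fun n => ((P n : Oˣ) : O))
    (fun m n hmn => h.lat_le_pow m _ (hdiff m n hmn))
  have hLk : ∀ k, L - (P k : O) ∈ lat π M k := by
    intro k
    obtain ⟨j, hj⟩ := h.isOpen k
    have h1 : L - (P (max j k) : O) ∈ lat π M k :=
      hj _ (Ideal.pow_le_pow_right (le_max_left j k) (hL (max j k)))
    have h2 := hdiff k (max j k) (le_max_right j k)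
    have : L - (P k : O) = (L - (P (max j k) : O)) + (((P (max j k) : Oˣ) : O) - P k) := by
      ring
    rw [this]
    exact (lat π M k).add_mem h1 h2
  have hL0 : L - 1 ∈ lat π M 0 := by
    have := hLk 0
    simpa [hP] using this
  obtain ⟨y, hy, hyL⟩ := h.exists_unit hL0
  refine ⟨y, hy, fun k => ?_⟩
  apply h.div_mem_W (hP0 k)
  have : (y : O) = L := by rw [hyL]; ring
  rw [this]
  exact hLk k

/-- Coordinates of an element of `W k`. -/
lemma exists_coord {k : ℕ} {u : Oˣ} (hu : u ∈ h.W k) : ∃ a ∈ M, (u : O) - 1 = π ^ k * a := by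
  obtain ⟨a, ha, hau⟩ := mem_lat.1 (h.mem_W.1 hu)
  exact ⟨a, ha, hau.symm⟩

lemma pow_mul_mem_lat (k : ℕ) {a : O} (ha : a ∈ M) : π ^ k * a ∈ lat π M k :=
  mem_lat.2 ⟨a, ha, rfl⟩

lemma pow_mul_mem_lat_succ (k : ℕ) {a : O} (ha : a ∈ lat π M 1) :
    π ^ k * a ∈ lat π M (k + 1) := by
  obtain ⟨c, hc, rfl⟩ := mem_lat.1 ha
  exact mem_lat.2 ⟨c, hc, by ring⟩

/-- graded exactness at `norm` after `σ - 1`. -/
lemma graded1 (k : ℕ) (u : Oˣ) (hu : u ∈ h.W k) (hfu : sigmaSubOne σ u ∈ h.W (k + 1)) :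
    ∃ w ∈ h.W k, u / normU G w ∈ h.W (k + 1) := by
  obtain ⟨a, ha, hua⟩ := h.exists_coord hu
  have h1 : σ • (u : O) - u ∈ lat π M (k + 1) := by
    have := h.sub_mem_of_div_mem_W (h.W_le_zero k hu) hfu
    simpa using this
  have h2 : σ • (u : O) - u = π ^ k * (σ • a - a) := by
    have : σ • (u : O) - u = σ • ((u : O) - 1) - ((u : O) - 1) := by
      simp [smul_sub]
    rw [this, hua, smul_mul', smul_pow', h.pi_fixed]; ring
  rw [h2] at h1
  have h3 : σ • a - a ∈ lat π M 1 := h.cancel_pow h1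
  obtain ⟨b, hb, hab⟩ := h.ex1 a ha h3
  obtain ⟨w, hw, hwb⟩ := h.exists_unit (h.pow_mul_mem_lat k hb)
  refine ⟨w, hw, ?_⟩
  apply h.div_mem_W (h.W_le_zero k (h.normU_mem_W hw))
  -- expansion of the norm
  have hx : ∀ g : G, g • (π ^ k * b) ∈ lat π M k :=
    fun g => h.smul_mem_lat g (h.pow_mul_mem_lat k hb)
  have hexp := (h.prod_one_add k (fun g => g • (π ^ k * b)) hx Finset.univ).1
  have hnorm : ((normU G w : Oˣ) : O) = ∏ g : G, (1 + g • (π ^ k * b)) := by
    rw [coe_normU]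
    refine Finset.prod_congr rfl (fun g _ => ?_)
    rw [hwb, smul_add, smul_one]
  have hsum : ∑ g : G, g • (π ^ k * b) = π ^ k * ∑ g : G, g • b := by
    rw [Finset.mul_sum]
    refine Finset.sum_congr rfl (fun g _ => ?_)
    rw [smul_mul', smul_pow', h.pi_fixed]
  have : (u : O) - (normU G w : Oˣ) = π ^ k * (a - ∑ g : G, g • b) -
      ((∏ g : G, (1 + g • (π ^ k * b))) - 1 - ∑ g : G, g • (π ^ k * b)) := by
    rw [hnorm, hsum]
    have : (u : O) = 1 + π ^ k * a := by rw [← hua]; ring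
    rw [this]; ring
  rw [this]
  exact (lat π M (k + 1)).sub_mem (h.pow_mul_mem_lat_succ k hab) hexp

/-- graded exactness at `σ - 1` after `norm`. -/
lemma graded2 (k : ℕ) (u : Oˣ) (hu : u ∈ h.W k) (hfu : normU G u ∈ h.W (k + 1)) :
    ∃ w ∈ h.W k, u / sigmaSubOne σ w ∈ h.W (k + 1) := by
  obtain ⟨a, ha, hua⟩ := h.exists_coord hu
  have hu1 : (u : O) = 1 + π ^ k * a := by rw [← hua]; ring
  have hx : ∀ g : G, g • (π ^ k * a) ∈ lat π M k :=
    fun g => h.smul_mem_lat g (h.pow_mul_mem_lat k ha)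
  have hexp := (h.prod_one_add k (fun g => g • (π ^ k * a)) hx Finset.univ).1
  have hnorm : ((normU G u : Oˣ) : O) = ∏ g : G, (1 + g • (π ^ k * a)) := by
    rw [coe_normU]
    refine Finset.prod_congr rfl (fun g _ => ?_)
    rw [hu1, smul_add, smul_one]
  have hsum : ∑ g : G, g • (π ^ k * a) = π ^ k * ∑ g : G, g • a := by
    rw [Finset.mul_sum]
    refine Finset.sum_congr rfl (fun g _ => ?_)
    rw [smul_mul', smul_pow', h.pi_fixed]
  have h1 : π ^ k * ∑ g : G, g • a ∈ lat π M (k + 1) := by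
    have h0 : ((normU G u : Oˣ) : O) - 1 ∈ lat π M (k + 1) := hfu
    have : π ^ k * ∑ g : G, g • a = (((normU G u : Oˣ) : O) - 1) -
        ((∏ g : G, (1 + g • (π ^ k * a))) - 1 - ∑ g : G, g • (π ^ k * a)) := by
      rw [hnorm, hsum]; ring
    rw [this]
    exact (lat π M (k + 1)).sub_mem h0 hexp
  have h3 : ∑ g : G, g • a ∈ lat π M 1 := h.cancel_pow h1
  obtain ⟨b, hb, hab⟩ := h.ex2 a ha h3
  obtain ⟨w, hw, hwb⟩ := h.exists_unit (h.pow_mul_mem_lat k hb)
  refine ⟨w, hw, ?_⟩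
  have hsw : sigmaSubOne σ w ∈ h.W k := h.sigmaSubOne_mem_W hw
  apply h.div_mem_W (h.W_le_zero k hsw)
  -- expansion of σ w / w
  have hwinv : ((w⁻¹ : Oˣ) : O) - 1 ∈ lat π M k := (h.W k).inv_mem hw
  have hd : π ^ k * (σ • b - b) ∈ lat π M k :=
    h.pow_mul_mem_lat k (M.sub_mem (h.smul_mem σ b hb) hb)
  have hsig : ((sigmaSubOne σ w : Oˣ) : O) =
      1 + π ^ k * (σ • b - b) + π ^ k * (σ • b - b) * (((w⁻¹ : Oˣ) : O) - 1) := by
    rw [sigmaSubOne_apply, div_eq_mul_inv, Units.val_mul, coe_actU]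
    have e1 : σ • (w : O) = (w : O) + π ^ k * (σ • b - b) := by
      rw [hwb, smul_add, smul_one, smul_mul', smul_pow', h.pi_fixed]; ring
    rw [e1]
    have e2 : (w : O) * ((w⁻¹ : Oˣ) : O) = 1 := Units.mul_inv w
    have : ((w : O) + π ^ k * (σ • b - b)) * ((w⁻¹ : Oˣ) : O) =
        (w : O) * ((w⁻¹ : Oˣ) : O) + π ^ k * (σ • b - b) * ((w⁻¹ : Oˣ) : O) := by ring
    rw [this, e2]; ring
  have : (u : O) - (sigmaSubOne σ w : Oˣ) = π ^ k * (a - (σ • b - b)) -
      π ^ k * (σ • b - b) * (((w⁻¹ : Oˣ) : O) - 1) := by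
    rw [hsig, hu1]; ring
  rw [this]
  exact (lat π M (k + 1)).sub_mem (h.pow_mul_mem_lat_succ k hab) (h.lat_mul_self hd hwinv)

variable [IsAdicComplete (maximalIdeal O) O]

/-- **Exactness at the norm**: a `σ`-fixed unit in `1 + M` is a norm from `1 + M`. -/
theorem exists_normU_eq (u : Oˣ) (hu : u ∈ h.W 0) (hfix : sigmaSubOne σ u = 1) :
    ∃ y ∈ h.W 0, normU G y = u :=
  exists_eq_of_filtration h.W (sigmaSubOne σ) (normU G) h.W_sep h.W_complete
    (fun _ _ hu => h.normU_mem_W hu) (sigmaSubOne_normU σ) h.graded1 u hu hfix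

/-- **Exactness at `σ - 1`**: a unit of norm one in `1 + M` is of the form `σ y / y`. -/
theorem exists_sigmaSubOne_eq (u : Oˣ) (hu : u ∈ h.W 0) (hnorm : normU G u = 1) :
    ∃ y ∈ h.W 0, sigmaSubOne σ y = u :=
  exists_eq_of_filtration h.W (normU G) (sigmaSubOne σ) h.W_sep h.W_complete
    (fun _ _ hu => h.sigmaSubOne_mem_W hu) (normU_sigmaSubOne σ) h.graded2 u hu hnorm

end IsGoodLattice

end Fermat.Agent.S55.H713
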