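import Fermat.Agent.S55.H713.Graded

/-!
# Existence of a good lattice in a Galois-stable complete discrete valuation ring
-/

set_option autoImplicit false
set_option linter.unusedSectionVars false

open IsLocalRing

namespace Fermat.Agent.S55.H713

variable {F E : Type*} [Field F] [Field E] [Algebra F E] [FiniteDimensional F E] [IsGalois F E]
variable {O : ValuationSubring E}

/-- The action of the Galois group on a stable valuation subring. -/
@[reducible] def galAction (hstab : GalStable F O) : MulSemiringAction Gal(E/F) O where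
  smul g x := ⟨g x.1, hstab g x.1 x.2⟩
  one_smul _ := Subtype.ext rfl
  mul_smul _ _ _ := Subtype.ext rfl
  smul_zero g := Subtype.ext (map_zero g)
  smul_add g _ _ := Subtype.ext (map_add g _ _)
  smul_one g := Subtype.ext (map_one g)
  smul_mul g _ _ := Subtype.ext (map_mul g _ _)

lemma coe_galAction_smul (hstab : GalStable F O) (g : Gal(E/F)) (x : O) :
    letI := galAction hstab
    ((g • x : O) : E) = g (x : E) := rfl

/-- The lattice inside `O`. -/
def latO (O : ValuationSubring E) (t : F) : AddSubgroup O :=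
  (normLat O t).comap (O.subtype : O →+* E).toAddMonoidHom

lemma mem_latO {t : F} {x : O} : x ∈ latO O t ↔ (x : E) ∈ normLat O t := Iff.rfl

variable [IsDiscreteValuationRing O]

section

variable {p : F} (hp : IsParam O p) (hstab : GalStable F O)

include hp hstab in
lemma mem_lat_latO {t : F} (ht : t ≠ 0) (hθ : t • nb F E 1 ∈ O) (k : ℕ) (x : O) :
    x ∈ lat hp.toO (latO O t) k ↔ (x : E) ∈ normLat O (p ^ k * t) := by
  constructor
  · intro hx
    obtain ⟨a, ha, rfl⟩ := mem_lat.1 hx
    have : ((hp.toO ^ k * a : O) : E) = p ^ k • (a : E) := by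
      rw [Subring.coe_mul, hp.coe_toO_pow, Algebra.smul_def]
    rw [this]
    exact smul_mem_normLat_mul (hp.pow_ne_zero k) ha
  · intro hx
    have h1 : (p ^ k)⁻¹ • (x : E) ∈ normLat O t := (mem_normLat_mul (hp.pow_ne_zero k)).1 hx
    have h2 : (p ^ k)⁻¹ • (x : E) ∈ O := normLat_le hstab ht hθ h1
    refine mem_lat.2 ⟨⟨_, h2⟩, h1, ?_⟩
    apply Subtype.ext
    rw [Subring.coe_mul, hp.coe_toO_pow]
    change algebraMap F E (p ^ k) * ((p ^ k)⁻¹ • (x : E)) = x
    rw [← Algebra.smul_def, smul_smul, mul_inv_cancel₀ (hp.pow_ne_zero k), one_smul]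

end

/-- **Existence of a good lattice.** -/
theorem exists_goodLattice (hstab : GalStable F O) (σ : Gal(E/F))
    (hσ : ∀ g, g ∈ Subgroup.zpowers σ) :
    letI := galAction hstab
    ∃ (π : O) (M : AddSubgroup O), IsGoodLattice σ π M := by
  classical
  let _ := galAction hstab
  obtain ⟨p, hp⟩ := exists_isParam (F := F) hstab
  obtain ⟨N₁, hN₁⟩ := hp.exists_pow_smul_mem (nb F E 1)
  -- a common exponent for the dual basis
  have hN₀ : ∃ N₀, ∀ g : Gal(E/F), p ^ N₀ • dnb F E g ∈ O := by
    choose k hk using fun g : Gal(E/F) => hp.exists_pow_smul_mem (dnb F E g)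
    exact ⟨Finset.univ.sup k, fun g =>
      hp.smul_mem_of_le (Finset.le_sup (Finset.mem_univ g)) (hk g)⟩
  obtain ⟨N₀, hN₀⟩ := hN₀
  set m := N₀ + 2 * N₁ + 1 with hm
  have ht : p ^ m ≠ 0 := hp.pow_ne_zero m
  have hθ : p ^ m • nb F E 1 ∈ O := hp.smul_mem_of_le (by omega) hN₁
  have hlat := mem_lat_latO hp hstab ht hθ
  -- openness in the form `p ^ (N₀ + j) • O ⊆ normLat (p ^ j)`
  have hopen : ∀ (j c : ℕ) (y : E), y ∈ O → N₀ + j ≤ c → p ^ c • y ∈ normLat O (p ^ j) := by
    intro j c y hy hc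
    obtain ⟨d, rfl⟩ := Nat.exists_eq_add_of_le hc
    have e : p ^ (N₀ + j + d) • y = p ^ (N₀ + j) • (p ^ d • y) := by
      rw [smul_smul, ← pow_add]
    rw [e]
    refine smul_mem_normLat_of_mem hstab (fun g => ?_) (hp.smul_mem hy d)
    have : p ^ (N₀ + j) / p ^ j = p ^ N₀ := by
      rw [pow_add, mul_div_assoc, div_self (hp.pow_ne_zero j), mul_one]
    rw [this]
    exact hN₀ g
  -- elements of the lattice are divisible by `p ^ (m - N₁)`
  have hdiv : ∀ x : E, x ∈ normLat O (p ^ m) →
      ∃ y ∈ O, x = p ^ (N₀ + N₁ + 1) • y := by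
    intro x hx
    have e : p ^ m = p ^ (N₀ + N₁ + 1) * p ^ N₁ := by
      rw [← pow_add]; congr 1; omega
    rw [e] at hx
    have h1 := (mem_normLat_mul (hp.pow_ne_zero _)).1 hx
    refine ⟨_, normLat_le hstab (hp.pow_ne_zero N₁) hN₁ h1, ?_⟩
    rw [smul_smul, mul_inv_cancel₀ (hp.pow_ne_zero _), one_smul]
  refine ⟨hp.toO, latO O (p ^ m), ?_⟩
  refine
    { pi_fixed := ?_
      pi_mem := hp.toO_mem_maximalIdeal
      pi_ne := hp.toO_ne_zero
      smul_mem := ?_
      pi_mul_mem := ?_
      mul_mem := ?_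
      isOpen := ?_
      le_max := ?_
      ex1 := ?_
      ex2 := ?_ }
  · intro g
    apply Subtype.ext
    change g (algebraMap F E p) = algebraMap F E p
    exact g.commutes p
  · intro g a ha
    exact galois_mem_normLat g ha
  · intro a ha
    have : ((hp.toO * a : O) : E) = p • (a : E) := by
      rw [Subring.coe_mul, Algebra.smul_def]; rfl
    rw [mem_latO, this]
    exact smul_mem_normLat hp.mem ha
  · intro a ha b hb
    obtain ⟨a', ha', hae⟩ := hdiv a ha
    obtain ⟨b', hb', hbe⟩ := hdiv b hb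
    have hab : ((a * b : O) : E) ∈ normLat O (p ^ 1 * p ^ m) := by
      have e : ((a * b : O) : E) = p ^ (N₀ + (m + 1)) • (a' * b') := by
        rw [Subring.coe_mul, hae, hbe, smul_mul_smul_comm, ← pow_add]
        congr 2; omega
      rw [e, ← pow_add, add_comm 1 m]
      exact hopen (m + 1) _ _ (O.mul_mem _ _ ha' hb') le_rfl
    obtain ⟨c, hc, hce⟩ := mem_lat.1 ((hlat 1 (a * b)).2 hab)
    exact ⟨c, hc, by rw [← hce, pow_one]⟩
  · intro k
    obtain ⟨e, he⟩ := hp.exists_pow_le
    refine ⟨e * (N₀ + (k + m)), fun x hx => ?_⟩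
    obtain ⟨y, hy⟩ := he _ x hx
    rw [hlat k x, ← pow_add]
    have : (x : E) = p ^ (N₀ + (k + m)) • (y : E) := by
      rw [hy, Subring.coe_mul, hp.coe_toO_pow, Algebra.smul_def]
    rw [this]
    exact hopen (k + m) _ _ y.2 le_rfl
  · intro a ha
    obtain ⟨a', ha', hae⟩ := hdiv a ha
    have : a = hp.toO ^ (N₀ + N₁ + 1) * ⟨a', ha'⟩ := by
      apply Subtype.ext
      rw [Subring.coe_mul, hp.coe_toO_pow, hae, Algebra.smul_def]
    rw [this]
    exact Ideal.mul_mem_right _ _
      (Ideal.pow_mem_of_mem _ hp.toO_mem_maximalIdeal _ (by omega))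
  · intro a ha hsa
    have h1 : σ (a : E) - a ∈ normLat O (p * p ^ m) := by
      have := (hlat 1 _).1 hsa
      rwa [pow_one] at this
    obtain ⟨b, hb, hab⟩ := ex1_E hσ ha h1
    have hbO : b ∈ O := normLat_le hstab ht hθ hb
    refine ⟨⟨b, hbO⟩, hb, ?_⟩
    rw [hlat 1, pow_one]
    have : ((a - ∑ g : Gal(E/F), g • (⟨b, hbO⟩ : O) : O) : E) =
        (a : E) - ∑ g : Gal(E/F), g b := by
      rw [AddSubgroupClass.coe_sub]
      congr 1
      rw [← O.subtype_apply, map_sum]
      rfl
    rw [this]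
    exact hab
  · intro a ha hsa
    have h1 : ∑ g : Gal(E/F), g (a : E) ∈ normLat O (p * p ^ m) := by
      have := (hlat 1 _).1 hsa
      rw [pow_one] at this
      have e : ((∑ g : Gal(E/F), g • a : O) : E) = ∑ g : Gal(E/F), g (a : E) := by
        rw [← O.subtype_apply, map_sum]
        rfl
      rwa [e] at this
    obtain ⟨b, hb, hab⟩ := ex2_E hσ ht ha h1
    have hbO : b ∈ O := normLat_le hstab ht hθ hb
    refine ⟨⟨b, hbO⟩, hb, ?_⟩
    rw [hlat 1, pow_one]
    exact hab

end Fermat.Agent.S55.H713
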