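import Fermat.Agent.S55.H713.Param

/-!
# Graded exactness for the normal basis lattice (cyclic Galois group)
-/

set_option autoImplicit false
set_option linter.unusedSectionVars false

namespace Fermat.Agent.S55.H713

variable {F E : Type*} [Field F] [Field E] [Algebra F E] [FiniteDimensional F E] [IsGalois F E]
variable {O : ValuationSubring E}

lemma exists_pow_eq_of_generator {σ : Gal(E/F)} (hσ : ∀ g, g ∈ Subgroup.zpowers σ)
    (g : Gal(E/F)) : ∃ j : ℕ, σ ^ j = g := by
  have h := hσ g
  rw [← (isOfFinOrder_of_finite σ).mem_powers_iff_mem_zpowers] at h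
  exact (Submonoid.mem_powers_iff _ _).1 h

lemma repr_sum_smul_nb (c : Gal(E/F) → F) (k : Gal(E/F)) :
    (nb F E).repr (∑ g, c g • nb F E g) k = c k := by
  classical
  rw [map_sum, Finset.sum_apply']
  simp [Finsupp.single_apply]

lemma smul_nb_one_mem {s c : F} (hc : algebraMap F E (c / s) ∈ O) :
    c • nb F E 1 ∈ normLat O s := by
  classical
  intro k
  rw [map_smul, Module.Basis.repr_self, Finsupp.smul_apply, Finsupp.single_apply, smul_eq_mul]
  split_ifs
  · simpa using hc
  · simp [O.zero_mem]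

/-- exactness at the trace, modulo `p`. -/
theorem ex1_E {σ : Gal(E/F)} (hσ : ∀ g, g ∈ Subgroup.zpowers σ) {p t : F}
    {x : E} (hx : x ∈ normLat O t) (hsx : σ x - x ∈ normLat O (p * t)) :
    ∃ b ∈ normLat O t, x - ∑ g : Gal(E/F), g b ∈ normLat O (p * t) := by
  set r := (nb F E).repr x with hr
  have hstep : ∀ g : Gal(E/F), algebraMap F E ((r (σ⁻¹ * g) - r g) / (p * t)) ∈ O := by
    intro g
    have := hsx g
    rwa [map_sub, Finsupp.sub_apply, repr_galois] at this
  have hpow : ∀ j : ℕ, algebraMap F E ((r (σ ^ j) - r 1) / (p * t)) ∈ O := by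
    intro j
    induction j with
    | zero => simp [O.zero_mem]
    | succ j ih =>
      have h1 := hstep (σ ^ (j + 1))
      have e : σ⁻¹ * σ ^ (j + 1) = σ ^ j := by
        rw [pow_succ']; group
      rw [e] at h1
      have : (r (σ ^ (j + 1)) - r 1) / (p * t) =
          (r (σ ^ j) - r 1) / (p * t) - (r (σ ^ j) - r (σ ^ (j + 1))) / (p * t) := by
        ring
      rw [this, map_sub]
      exact O.toSubring.sub_mem ih h1
  have hall : ∀ g : Gal(E/F), algebraMap F E ((r g - r 1) / (p * t)) ∈ O := by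
    intro g
    obtain ⟨j, rfl⟩ := exists_pow_eq_of_generator hσ g
    exact hpow j
  refine ⟨r 1 • nb F E 1, smul_nb_one_mem (hx 1), ?_⟩
  intro k
  have h1 : ∑ g : Gal(E/F), g (r 1 • nb F E 1) = ∑ g : Gal(E/F), r 1 • nb F E g := by
    refine Finset.sum_congr rfl (fun g _ => ?_)
    rw [map_smul, galois_nb, mul_one]
  rw [h1, map_sub, Finsupp.sub_apply, repr_sum_smul_nb]
  exact hall k

/-- the partial orbit sums. -/
noncomputable def orbSum (σ : Gal(E/F)) (j : ℕ) : E := ∑ i ∈ Finset.range j, nb F E (σ ^ i)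

lemma galois_orbSum (σ : Gal(E/F)) (j : ℕ) :
    σ (orbSum σ j) - orbSum σ j = nb F E (σ ^ j) - nb F E 1 := by
  induction j with
  | zero => simp [orbSum]
  | succ j ih =>
    have e1 : orbSum σ (j + 1) = orbSum σ j + nb F E (σ ^ j) := by
      simp [orbSum, Finset.sum_range_succ]
    rw [e1, map_add, galois_nb, ← pow_succ']
    have : σ (orbSum σ j) + nb F E (σ ^ (j + 1)) - (orbSum σ j + nb F E (σ ^ j)) =
        (σ (orbSum σ j) - orbSum σ j) + (nb F E (σ ^ (j + 1)) - nb F E (σ ^ j)) := by ring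
    rw [this, ih]; ring

lemma smul_orbSum_mem {t : F} (ht : t ≠ 0) (σ : Gal(E/F)) (j : ℕ) :
    t • orbSum σ j ∈ normLat O t := by
  rw [orbSum, Finset.smul_sum]
  exact (normLat O t).sum_mem (fun i _ => smul_nb_mem_normLat ht _)

/-- exactness at `σ - 1`, modulo `p`. -/
theorem ex2_E {σ : Gal(E/F)} (hσ : ∀ g, g ∈ Subgroup.zpowers σ) {p t : F} (ht : t ≠ 0)
    {x : E} (hx : x ∈ normLat O t) (hsx : ∑ g : Gal(E/F), g x ∈ normLat O (p * t)) :
    ∃ b ∈ normLat O t, x - (σ b - b) ∈ normLat O (p * t) := by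
  classical
  set r := (nb F E).repr x with hr
  -- the sum of the coordinates
  have hs : algebraMap F E ((∑ g : Gal(E/F), r g) / (p * t)) ∈ O := by
    have := hsx 1
    rw [map_sum, Finset.sum_apply'] at this
    have e : ∑ g : Gal(E/F), (nb F E).repr (g x) 1 = ∑ g : Gal(E/F), r g := by
      refine Fintype.sum_equiv (Equiv.inv _) _ _ (fun g => ?_)
      rw [repr_galois]; simp [hr]
    rwa [e] at this
  choose j hj using exists_pow_eq_of_generator hσ
  refine ⟨∑ g : Gal(E/F), r g • orbSum σ (j g), ?_, ?_⟩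
  · refine (normLat O t).sum_mem (fun g _ => ?_)
    have : r g • orbSum σ (j g) = (r g / t) • (t • orbSum σ (j g)) := by
      rw [smul_smul, div_mul_cancel₀ _ ht]
    rw [this]
    exact smul_mem_normLat (hx g) (smul_orbSum_mem ht σ (j g))
  · have h1 : σ (∑ g : Gal(E/F), r g • orbSum σ (j g)) - ∑ g : Gal(E/F), r g • orbSum σ (j g) =
        ∑ g : Gal(E/F), r g • (nb F E g - nb F E 1) := by
      rw [map_sum, ← Finset.sum_sub_distrib]
      refine Finset.sum_congr rfl (fun g _ => ?_)
      rw [map_smul, ← smul_sub, galois_orbSum, hj]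
    have h2 : ∑ g : Gal(E/F), r g • (nb F E g - nb F E 1) =
        x - (∑ g : Gal(E/F), r g) • nb F E 1 := by
      simp_rw [smul_sub]
      rw [Finset.sum_sub_distrib, ← Finset.sum_smul]
      congr 1
      exact (nb F E).sum_repr x
    rw [h1, h2, sub_sub_cancel]
    exact smul_nb_one_mem hs

end Fermat.Agent.S55.H713
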