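import Fermat.Agent.S55.Herbrand.Basic

/-!
# Herbrand quotient: a stable exact subgroup of finite index
-/

set_option autoImplicit false
set_option linter.unusedSectionVars false

namespace Fermat.Agent.S55.H713

open Fermat.Agent.S55.Herbrand

variable {B : Type*} [AddCommGroup B]

/-- If `A ≤ B` is stable under `f, g`, the pairs `(f, g)` and `(g, f)` are exact on `A`, and
`B ⧸ A` is finite, then the Herbrand quotient of `B` is defined and equal to `1`. -/
theorem q_eq_one_of_exact_of_finite (f g : B →+ B)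
    (hfg : ∀ b, f (g b) = 0) (hgf : ∀ b, g (f b) = 0) (A : AddSubgroup B)
    (hfA : ∀ a ∈ A, f a ∈ A) (hgA : ∀ a ∈ A, g a ∈ A)
    (hex1 : ∀ a ∈ A, f a = 0 → ∃ y ∈ A, g y = a)
    (hex2 : ∀ a ∈ A, g a = 0 → ∃ y ∈ A, f y = a)
    [Finite (B ⧸ A)] : IsDefined f g ∧ q f g = 1 := by
  -- restricted maps
  let fA : A →+ A := (f.comp A.subtype).codRestrict A (fun a => hfA a a.2)
  let gA : A →+ A := (g.comp A.subtype).codRestrict A (fun a => hgA a a.2)
  -- induced maps
  let fC : B ⧸ A →+ B ⧸ A := QuotientAddGroup.map A A f (fun a ha => hfA a ha)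
  let gC : B ⧸ A →+ B ⧸ A := QuotientAddGroup.map A A g (fun a ha => hgA a ha)
  have hi : Function.Injective A.subtype := A.subtype_injective
  have hp : Function.Surjective (QuotientAddGroup.mk' A) := QuotientAddGroup.mk'_surjective A
  have hex : (QuotientAddGroup.mk' A).ker = A.subtype.range := by
    rw [QuotientAddGroup.ker_mk', AddSubgroup.range_subtype]
  have hif : ∀ a, A.subtype (fA a) = f (A.subtype a) := fun a => rfl
  have hig : ∀ a, A.subtype (gA a) = g (A.subtype a) := fun a => rfl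
  have hpf : ∀ b, QuotientAddGroup.mk' A (f b) = fC (QuotientAddGroup.mk' A b) := fun b => rfl
  have hpg : ∀ b, QuotientAddGroup.mk' A (g b) = gC (QuotientAddGroup.mk' A b) := fun b => rfl
  -- exactness on `A`
  have h1 : hIndex fA gA = 1 := by
    unfold hIndex
    rw [AddSubgroup.relIndex_eq_one]
    intro a ha
    obtain ⟨y, hy, hya⟩ := hex1 a a.2 (by
      have := AddMonoidHom.mem_ker.1 ha
      exact congrArg Subtype.val this)
    exact ⟨⟨y, hy⟩, Subtype.ext hya⟩
  have h2 : hIndex gA fA = 1 := by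
    unfold hIndex
    rw [AddSubgroup.relIndex_eq_one]
    intro a ha
    obtain ⟨y, hy, hya⟩ := hex2 a a.2 (by
      have := AddMonoidHom.mem_ker.1 ha
      exact congrArg Subtype.val this)
    exact ⟨⟨y, hy⟩, Subtype.ext hya⟩
  have hA : IsDefined fA gA := ⟨by rw [h1]; exact one_ne_zero, by rw [h2]; exact one_ne_zero⟩
  have hqA : q fA gA = 1 := by unfold q; rw [h1, h2]; simp
  have hfgC : ∀ c, fC (gC c) = 0 := by
    intro c
    obtain ⟨b, rfl⟩ := hp c
    rw [← hpg, ← hpf, hfg, map_zero]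
  have hgfC : ∀ c, gC (fC c) = 0 := by
    intro c
    obtain ⟨b, rfl⟩ := hp c
    rw [← hpf, ← hpg, hgf, map_zero]
  have hC : IsDefined fC gC := isDefined_of_finite fC gC
  have hqC : q fC gC = 1 := q_eq_one_of_finite fC gC hfgC hgfC
  refine ⟨isDefined_mid hfg hgf hi hp hex hif hig hpf hpg hA hC, ?_⟩
  rw [q_mul_of_exact hfg hgf hi hp hex hif hig hpf hpg hA hC, hqA, hqC, one_mul]

/-- The Herbrand quotient of `ℤ` with `f = 0`, `g = n`. -/
theorem q_int (n : ℕ) (hn : n ≠ 0) :
    IsDefined (0 : ℤ →+ ℤ) (n • AddMonoidHom.id ℤ) ∧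
      q (0 : ℤ →+ ℤ) (n • AddMonoidHom.id ℤ) = n := by
  have hr : (n • AddMonoidHom.id ℤ).range = AddSubgroup.zmultiples (n : ℤ) := by
    ext x
    simp only [AddMonoidHom.mem_range, AddMonoidHom.smul_apply, AddMonoidHom.id_apply,
      nsmul_eq_mul, Int.mem_zmultiples_iff]
    constructor
    · rintro ⟨y, rfl⟩; exact ⟨y, rfl⟩
    · rintro ⟨y, rfl⟩; exact ⟨y, rfl⟩
  have hk : (n • AddMonoidHom.id ℤ).ker = ⊥ := by
    ext x
    simp only [AddMonoidHom.mem_ker, AddMonoidHom.smul_apply, AddMonoidHom.id_apply,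
      nsmul_eq_mul, AddSubgroup.mem_bot]
    constructor
    · intro h
      rcases mul_eq_zero.1 h with h | h
      · exact absurd (by exact_mod_cast h) hn
      · exact h
    · rintro rfl; simp
  have h1 : hIndex (0 : ℤ →+ ℤ) (n • AddMonoidHom.id ℤ) = n := by
    unfold hIndex
    rw [hr, AddMonoidHom.ker_zero, AddSubgroup.relIndex_top_right, Int.index_zmultiples]
    simp
  have h2 : hIndex (n • AddMonoidHom.id ℤ) (0 : ℤ →+ ℤ) = 1 := by
    unfold hIndex
    rw [hk, AddSubgroup.relIndex_eq_one]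
    exact bot_le
  refine ⟨⟨by rw [h1]; exact hn, by rw [h2]; exact one_ne_zero⟩, ?_⟩
  unfold q
  rw [h1, h2]; simp

end Fermat.Agent.S55.H713
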