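import Fermat.Agent.S55.H713.Approx

/-!
# Units of a complete local ring: an exact open subgroup from a good lattice

`O` is an adically complete local domain with an action of a finite group `G` by ring
automorphisms.  A *good lattice* `(σ, π, M)` is an additive subgroup `M ⊆ 𝔪` stable under `G`
and `π`, open, with `M * M ⊆ π M`, such that `σ - 1` and the trace are exact on `M / π M`.
Then on `W 0 = 1 + M ≤ Oˣ` the maps `u ↦ σ u / u` and the norm are exact.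
-/

set_option autoImplicit false
set_option linter.unusedSectionVars false

open IsLocalRing

namespace Fermat.Agent.S55.H713

variable {O : Type*} [CommRing O]

section Basic

/-- `π ^ k * M`. -/
def lat (π : O) (M : AddSubgroup O) (k : ℕ) : AddSubgroup O :=
  M.map (AddMonoidHom.mulLeft (π ^ k))

lemma mem_lat {π : O} {M : AddSubgroup O} {k : ℕ} {x : O} :
    x ∈ lat π M k ↔ ∃ a ∈ M, π ^ k * a = x := by
  simp [lat, AddSubgroup.mem_map]

lemma lat_zero (π : O) (M : AddSubgroup O) : lat π M 0 = M := by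
  ext x; simp [mem_lat]

end Basic

variable [IsDomain O] [IsLocalRing O]
variable {G : Type*} [Group G] [Fintype G] [MulSemiringAction G O]

/-- A good lattice. -/
structure IsGoodLattice (σ : G) (π : O) (M : AddSubgroup O) : Prop where
  pi_fixed : ∀ g : G, g • π = π
  pi_mem : π ∈ maximalIdeal O
  pi_ne : π ≠ 0
  smul_mem : ∀ g : G, ∀ a ∈ M, g • a ∈ M
  pi_mul_mem : ∀ a ∈ M, π * a ∈ M
  mul_mem : ∀ a ∈ M, ∀ b ∈ M, ∃ c ∈ M, a * b = π * c
  isOpen : ∀ k, ∃ j, ∀ x ∈ maximalIdeal O ^ j, x ∈ lat π M k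
  le_max : ∀ a ∈ M, a ∈ maximalIdeal O
  ex1 : ∀ a ∈ M, σ • a - a ∈ lat π M 1 → ∃ b ∈ M, a - ∑ g : G, g • b ∈ lat π M 1
  ex2 : ∀ a ∈ M, ∑ g : G, g • a ∈ lat π M 1 → ∃ b ∈ M, a - (σ • b - b) ∈ lat π M 1

namespace IsGoodLattice

variable {σ : G} {π : O} {M : AddSubgroup O} (h : IsGoodLattice σ π M)
include h

lemma lat_succ_le (k : ℕ) : lat π M (k + 1) ≤ lat π M k := by
  intro x hx
  obtain ⟨a, ha, rfl⟩ := mem_lat.1 hx
  exact mem_lat.2 ⟨π * a, h.pi_mul_mem a ha, by ring⟩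

lemma lat_antitone : Antitone (lat π M) :=
  antitone_nat_of_succ_le h.lat_succ_le

lemma lat_le_M (k : ℕ) : lat π M k ≤ M := by
  have := h.lat_antitone (Nat.zero_le k)
  rwa [lat_zero] at this

lemma lat_mul_lat {i j : ℕ} {x y : O} (hx : x ∈ lat π M i) (hy : y ∈ lat π M j) :
    x * y ∈ lat π M (i + j + 1) := by
  obtain ⟨a, ha, rfl⟩ := mem_lat.1 hx
  obtain ⟨b, hb, rfl⟩ := mem_lat.1 hy
  obtain ⟨c, hc, hab⟩ := h.mul_mem a ha b hb
  refine mem_lat.2 ⟨c, hc, ?_⟩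
  calc π ^ (i + j + 1) * c = π ^ i * π ^ j * (π * c) := by ring
    _ = π ^ i * a * (π ^ j * b) := by rw [← hab]; ring

lemma lat_mul_lat_left {i j : ℕ} {x y : O} (hx : x ∈ lat π M i) (hy : y ∈ lat π M j) :
    x * y ∈ lat π M i :=
  h.lat_antitone (by omega) (h.lat_mul_lat hx hy)

lemma lat_mul_lat_right {i j : ℕ} {x y : O} (hx : x ∈ lat π M i) (hy : y ∈ lat π M j) :
    x * y ∈ lat π M j :=
  h.lat_antitone (by omega) (h.lat_mul_lat hx hy)

/-- `lat k * lat k ⊆ lat (k+1)`. -/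
lemma lat_mul_self {k : ℕ} {x y : O} (hx : x ∈ lat π M k) (hy : y ∈ lat π M k) :
    x * y ∈ lat π M (k + 1) :=
  h.lat_antitone (by omega) (h.lat_mul_lat hx hy)

lemma lat_le_pow (k : ℕ) : ∀ x ∈ lat π M k, x ∈ maximalIdeal O ^ k := by
  intro x hx
  obtain ⟨a, -, rfl⟩ := mem_lat.1 hx
  exact Ideal.mul_mem_right _ _ (Ideal.pow_mem_pow h.pi_mem k)

lemma lat_le_max (k : ℕ) : ∀ x ∈ lat π M k, x ∈ maximalIdeal O :=
  fun x hx => h.le_max x (h.lat_le_M k hx)

lemma smul_mem_lat (g : G) {k : ℕ} {x : O} (hx : x ∈ lat π M k) : g • x ∈ lat π M k := by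
  obtain ⟨a, ha, rfl⟩ := mem_lat.1 hx
  refine mem_lat.2 ⟨g • a, h.smul_mem g a ha, ?_⟩
  rw [smul_mul', smul_pow', h.pi_fixed]

lemma cancel_pow {k j : ℕ} {x : O} (hx : π ^ k * x ∈ lat π M (k + j)) : x ∈ lat π M j := by
  obtain ⟨a, ha, hax⟩ := mem_lat.1 hx
  refine mem_lat.2 ⟨a, ha, ?_⟩
  have hk : π ^ k ≠ 0 := pow_ne_zero _ h.pi_ne
  apply mul_left_cancel₀ hk
  rw [← hax]; ring

/-- Multiplying by an element of `1 + M` preserves `lat k`. -/
lemma lat_mul_one_add {k : ℕ} {x y : O} (hx : x ∈ lat π M k) (hy : y - 1 ∈ M) :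
    x * y ∈ lat π M k := by
  have : x * y = x + x * (y - 1) := by ring
  rw [this]
  have hy' : y - 1 ∈ lat π M 0 := by rwa [lat_zero]
  exact (lat π M k).add_mem hx (h.lat_mul_lat_left hx hy')

end IsGoodLattice

end Fermat.Agent.S55.H713
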