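import Fermat.Agent.S55.H713.Exact

/-!
# The normal basis lattice

`E/F` finite Galois, `O` a valuation subring of `E` stable under `Gal(E/F)`.
For `t : F`, `normLat O t` is the set of `x : E` whose coordinates in the normal basis,
divided by `t`, lie in `O`.
-/

set_option autoImplicit false
set_option linter.unusedSectionVars false

open IsLocalRing

namespace Fermat.Agent.S55.H713

variable {F E : Type*} [Field F] [Field E] [Algebra F E] [FiniteDimensional F E] [IsGalois F E]
variable (O : ValuationSubring E)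

/-- `O` is stable under the Galois group. -/
def GalStable (F : Type*) {E : Type*} [Field F] [Field E] [Algebra F E]
    (O : ValuationSubring E) : Prop :=
  ∀ (g : Gal(E/F)) (x : E), x ∈ O → g x ∈ O

/-- The normal basis. -/
noncomputable abbrev nb (F E : Type*) [Field F] [Field E] [Algebra F E] [FiniteDimensional F E]
    [IsGalois F E] : Module.Basis Gal(E/F) F E := IsGalois.normalBasis F E

lemma galois_nb (g h : Gal(E/F)) : g (nb F E h) = nb F E (g * h) := by
  rw [IsGalois.normalBasis_apply h, IsGalois.normalBasis_apply (g * h)]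
  rfl

lemma repr_galois (g : Gal(E/F)) (x : E) (k : Gal(E/F)) :
    (nb F E).repr (g x) k = (nb F E).repr x (g⁻¹ * k) := by
  classical
  conv_lhs => rw [← (nb F E).sum_repr x]
  rw [map_sum, map_sum, Finset.sum_apply']
  have : ∀ h : Gal(E/F), (nb F E).repr (g (((nb F E).repr x) h • (nb F E) h)) k =
      if h = g⁻¹ * k then (nb F E).repr x h else 0 := by
    intro h
    rw [map_smul, galois_nb, map_smul, Module.Basis.repr_self, Finsupp.smul_apply,
      Finsupp.single_apply, smul_eq_mul]
    by_cases hk : h = g⁻¹ * k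
    · subst hk; simp
    · have : g * h ≠ k := fun e => hk (by rw [← e]; group)
      simp [this, hk]
  simp_rw [this]
  simp

/-- The lattice of elements whose normal basis coordinates lie in `t • (O ∩ F)`. -/
def normLat (t : F) : AddSubgroup E where
  carrier := {x | ∀ g, algebraMap F E ((nb F E).repr x g / t) ∈ O}
  zero_mem' := by intro g; simp [O.zero_mem]
  add_mem' := by
    intro x y hx hy g
    have : ((nb F E).repr (x + y) g) / t = (nb F E).repr x g / t + (nb F E).repr y g / t := by
      rw [map_add, Finsupp.add_apply, add_div]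
    rw [this, map_add]
    exact O.add_mem _ _ (hx g) (hy g)
  neg_mem' := by
    intro x hx g
    have : ((nb F E).repr (-x) g) / t = -((nb F E).repr x g / t) := by
      rw [map_neg, Finsupp.neg_apply, neg_div]
    rw [this, map_neg]
    exact O.neg_mem _ (hx g)

variable {O}

lemma mem_normLat {t : F} {x : E} :
    x ∈ normLat O t ↔ ∀ g, algebraMap F E ((nb F E).repr x g / t) ∈ O := Iff.rfl

lemma smul_mem_normLat {t : F} {c : F} (hc : algebraMap F E c ∈ O) {x : E}
    (hx : x ∈ normLat O t) : c • x ∈ normLat O t := by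
  intro g
  have : ((nb F E).repr (c • x) g) / t = c * ((nb F E).repr x g / t) := by
    rw [map_smul, Finsupp.smul_apply, smul_eq_mul, mul_div_assoc]
  rw [this, map_mul]
  exact O.mul_mem _ _ hc (hx g)

lemma galois_mem_normLat {t : F} (g : Gal(E/F)) {x : E} (hx : x ∈ normLat O t) :
    g x ∈ normLat O t := by
  intro k
  rw [repr_galois]
  exact hx _

lemma smul_nb_mem_normLat {t : F} (ht : t ≠ 0) (g : Gal(E/F)) : t • nb F E g ∈ normLat O t := by
  classical
  intro k
  rw [map_smul, Module.Basis.repr_self, Finsupp.smul_apply, Finsupp.single_apply, smul_eq_mul]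
  by_cases h : g = k
  · simp [h, ht, O.one_mem]
  · simp [h, O.zero_mem]

/-- scaling: `x ∈ normLat (s * t) ↔ s⁻¹ • x ∈ normLat t`. -/
lemma mem_normLat_mul {s t : F} (hs : s ≠ 0) {x : E} :
    x ∈ normLat O (s * t) ↔ s⁻¹ • x ∈ normLat O t := by
  have : ∀ g, ((nb F E).repr (s⁻¹ • x) g) / t = (nb F E).repr x g / (s * t) := by
    intro g
    rw [map_smul, Finsupp.smul_apply, smul_eq_mul]
    field_simp
  simp only [mem_normLat, this]

lemma smul_mem_normLat_mul {s t : F} (hs : s ≠ 0) {x : E} (hx : x ∈ normLat O t) :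
    s • x ∈ normLat O (s * t) := by
  rw [mem_normLat_mul hs, smul_smul, inv_mul_cancel₀ hs, one_smul]
  exact hx

/-- elements of `normLat t` are in `O` when `t • θ ∈ O`. -/
lemma normLat_le (hstab : GalStable F O) {t : F} (ht : t ≠ 0)
    (hθ : t • nb F E 1 ∈ O) {x : E} (hx : x ∈ normLat O t) : x ∈ O := by
  rw [← (nb F E).sum_repr x]
  refine O.toSubring.sum_mem (fun g _ => ?_)
  have h1 : (nb F E).repr x g • nb F E g =
      algebraMap F E ((nb F E).repr x g / t) * (t • nb F E g) := by
    rw [Algebra.smul_def, Algebra.smul_def, ← mul_assoc, ← map_mul, div_mul_cancel₀ _ ht]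
  rw [h1]
  refine O.mul_mem _ _ (hx g) ?_
  have h2 : t • nb F E g = g (t • nb F E 1) := by
    rw [map_smul, galois_nb, mul_one]
  rw [h2]
  exact hstab g _ hθ


/-! ### The trace-dual basis and openness -/

open scoped Classical in
/-- The trace-dual of the normal basis. -/
noncomputable def dnb (F E : Type*) [Field F] [Field E] [Algebra F E] [FiniteDimensional F E]
    [IsGalois F E] : Module.Basis Gal(E/F) F E :=
  (Algebra.traceForm F E).dualBasis (traceForm_nondegenerate F E) (nb F E)

open scoped Classical in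
lemma repr_eq_trace (x : E) (g : Gal(E/F)) :
    (nb F E).repr x g = Algebra.trace F E (x * dnb F E g) := by
  have h : (Algebra.traceForm F E).dualBasis (traceForm_nondegenerate F E) (dnb F E) = nb F E :=
    LinearMap.BilinForm.dualBasis_dualBasis (traceForm_nondegenerate F E)
      (Algebra.traceForm_isSymm F) (nb F E)
  have h2 := LinearMap.BilinForm.dualBasis_repr_apply (traceForm_nondegenerate F E)
    (dnb F E) x g
  rw [← Algebra.traceForm_apply, ← h2, h]

lemma trace_mem (hstab : GalStable F O) {x : E} (hx : x ∈ O) :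
    algebraMap F E (Algebra.trace F E x) ∈ O := by
  rw [trace_eq_sum_automorphisms]
  exact O.toSubring.sum_mem (fun g _ => hstab g x hx)

/-- Openness: if `(s / t) • d ∈ O` for all dual basis vectors `d`, then `s • O ⊆ normLat t`. -/
lemma smul_mem_normLat_of_mem (hstab : GalStable F O) {s t : F}
    (hd : ∀ g, (s / t) • dnb F E g ∈ O) {x : E} (hx : x ∈ O) : s • x ∈ normLat O t := by
  intro g
  have : ((nb F E).repr (s • x) g) / t = Algebra.trace F E (x * ((s / t) • dnb F E g)) := by
    rw [map_smul, Finsupp.smul_apply, smul_eq_mul, repr_eq_trace, mul_smul_comm, map_smul,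
      smul_eq_mul]
    ring
  rw [this]
  exact trace_mem hstab (O.mul_mem _ _ hx (hd g))

/-! ### Parameters -/

/-- A parameter: a nonzero element of `F` lying in the maximal ideal of `O`. -/
structure IsParam (O : ValuationSubring E) (p : F) : Prop where
  ne_zero : p ≠ 0
  mem : algebraMap F E p ∈ O
  inv_not_mem : (algebraMap F E p)⁻¹ ∉ O

namespace IsParam

variable {p : F} (hp : IsParam O p)
include hp

lemma pow_mem (k : ℕ) : algebraMap F E (p ^ k) ∈ O := by
  rw [map_pow]; exact O.toSubring.pow_mem hp.mem k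

lemma pow_ne_zero (k : ℕ) : p ^ k ≠ 0 := _root_.pow_ne_zero k hp.ne_zero

lemma smul_mem {x : E} (hx : x ∈ O) (k : ℕ) : p ^ k • x ∈ O := by
  rw [Algebra.smul_def]; exact O.mul_mem _ _ (hp.pow_mem k) hx

lemma smul_mem_of_le {x : E} {k l : ℕ} (hkl : k ≤ l) (hx : p ^ k • x ∈ O) : p ^ l • x ∈ O := by
  obtain ⟨d, rfl⟩ := Nat.exists_eq_add_of_le hkl
  rw [add_comm, pow_add, mul_smul]
  exact hp.smul_mem hx d

/-- The parameter as an element of `O`. -/
def toO : O := ⟨algebraMap F E p, hp.mem⟩

lemma toO_ne_zero : hp.toO ≠ 0 := by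
  intro h
  have : algebraMap F E p = 0 := congrArg Subtype.val h
  exact hp.ne_zero ((map_eq_zero _).1 this)

lemma toO_mem_maximalIdeal : hp.toO ∈ maximalIdeal O := by
  rw [mem_maximalIdeal, mem_nonunits_iff]
  intro hu
  obtain ⟨u, hu⟩ := hu
  apply hp.inv_not_mem
  have h1 : ((u⁻¹ : Oˣ) : E) = (algebraMap F E p)⁻¹ := by
    have h2 : ((u : O) : E) * ((u⁻¹ : Oˣ) : O) = 1 := by
      rw [← Subring.coe_mul]
      simp
    have h3 : ((u : O) : E) = algebraMap F E p := by rw [hu]; rfl
    rw [h3] at h2
    exact eq_inv_of_mul_eq_one_right h2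
  rw [← h1]
  exact ((u⁻¹ : Oˣ) : O).2

end IsParam

end Fermat.Agent.S55.H713
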