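import Fermat.Agent.S55.H713.NormalLattice

/-!
# Parameters in a Galois-stable discrete valuation ring
-/

set_option autoImplicit false
set_option linter.unusedSectionVars false

open IsLocalRing

namespace Fermat.Agent.S55.H713

variable {F E : Type*} [Field F] [Field E] [Algebra F E] [FiniteDimensional F E] [IsGalois F E]
variable {O : ValuationSubring E} [IsDiscreteValuationRing O]

namespace IsParam

variable {p : F} (hp : IsParam O p)
include hp

lemma coe_toO_pow (k : ℕ) : ((hp.toO ^ k : O) : E) = algebraMap F E (p ^ k) := by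
  rw [map_pow]; rfl

/-- Every element of `E` is moved into `O` by a power of the parameter. -/
lemma exists_pow_smul_mem (x : E) : ∃ k, p ^ k • x ∈ O := by
  by_cases hx : x ∈ O
  · exact ⟨0, by simpa using hx⟩
  have hx' : x⁻¹ ∈ O := (O.mem_or_inv_mem x).resolve_left hx
  have hx0 : x ≠ 0 := fun h => hx (h ▸ O.zero_mem)
  obtain ⟨ϖ, hϖ⟩ := IsDiscreteValuationRing.exists_irreducible O
  have hy0 : (⟨x⁻¹, hx'⟩ : O) ≠ 0 := by
    intro h
    exact inv_ne_zero hx0 (congrArg Subtype.val h)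
  obtain ⟨j, u, hu⟩ := IsDiscreteValuationRing.eq_unit_mul_pow_irreducible hy0 hϖ
  have hmem := hp.toO_mem_maximalIdeal
  rw [hϖ.maximalIdeal_eq, Ideal.mem_span_singleton'] at hmem
  obtain ⟨r, hr⟩ := hmem
  refine ⟨j, ?_⟩
  have h1 : x⁻¹ = ((u : O) : E) * (ϖ : E) ^ j := by
    have := congrArg Subtype.val hu
    simpa using this
  have h2 : algebraMap F E p = (r : E) * (ϖ : E) := by
    have := congrArg Subtype.val hr
    simpa [IsParam.toO] using this.symm
  have h3 : p ^ j • x = (r : E) ^ j * ((u⁻¹ : Oˣ) : O) := by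
    rw [Algebra.smul_def, map_pow, h2, mul_pow]
    have hu1 : ((u : O) : E) * ((u⁻¹ : Oˣ) : O) = 1 := by
      rw [← Subring.coe_mul]; simp
    have hx1 : x * x⁻¹ = 1 := mul_inv_cancel₀ hx0
    rw [h1] at hx1
    have : (ϖ : E) ^ j * x = ((u⁻¹ : Oˣ) : O) := by
      calc (ϖ : E) ^ j * x = (ϖ : E) ^ j * x * (((u : O) : E) * ((u⁻¹ : Oˣ) : O)) := by
            rw [hu1, mul_one]
        _ = (x * (((u : O) : E) * (ϖ : E) ^ j)) * ((u⁻¹ : Oˣ) : O) := by ring
        _ = ((u⁻¹ : Oˣ) : O) := by rw [hx1, one_mul]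
    rw [mul_assoc, this]
  rw [h3]
  exact O.mul_mem _ _ (O.toSubring.pow_mem r.2 j) ((u⁻¹ : Oˣ) : O).2

/-- Powers of the maximal ideal are eventually inside `(p ^ t)`. -/
lemma exists_pow_le : ∃ e : ℕ, ∀ (t : ℕ) (x : O), x ∈ maximalIdeal O ^ (e * t) →
    ∃ y : O, x = hp.toO ^ t * y := by
  obtain ⟨ϖ, hϖ⟩ := IsDiscreteValuationRing.exists_irreducible O
  have hne : Ideal.span {hp.toO} ≠ ⊥ := by
    rw [Ne, Ideal.span_singleton_eq_bot]; exact hp.toO_ne_zero
  obtain ⟨e, he⟩ := IsDiscreteValuationRing.ideal_eq_span_pow_irreducible hne hϖ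
  refine ⟨e, fun t x hx => ?_⟩
  have : maximalIdeal O ^ (e * t) = Ideal.span {hp.toO ^ t} := by
    rw [hϖ.maximalIdeal_eq, Ideal.span_singleton_pow, pow_mul, ← Ideal.span_singleton_pow, ← he,
      Ideal.span_singleton_pow]
  rw [this, Ideal.mem_span_singleton'] at hx
  obtain ⟨y, hy⟩ := hx
  exact ⟨y, by rw [← hy, mul_comm]⟩

end IsParam

/-- A parameter exists: the norm of a uniformizer. -/
theorem exists_isParam (hstab : GalStable F O) : ∃ p : F, IsParam O p := by
  classical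
  obtain ⟨ϖ, hϖ⟩ := IsDiscreteValuationRing.exists_irreducible O
  have hϖ0 : (ϖ : E) ≠ 0 := fun h => hϖ.ne_zero (Subtype.ext h)
  refine ⟨Algebra.norm F (ϖ : E), ?_, ?_, ?_⟩
  · rw [Ne, Algebra.norm_eq_zero_iff]; exact hϖ0
  · rw [Algebra.norm_eq_prod_automorphisms]
    exact O.toSubring.prod_mem (fun g _ => hstab g _ ϖ.2)
  · rw [Algebra.norm_eq_prod_automorphisms]
    intro hinv
    -- the product as an element of `O`
    set P : O := ∏ g : Gal(E/F), (⟨g (ϖ : E), hstab g _ ϖ.2⟩ : O) with hP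
    have hPc : (P : E) = ∏ g : Gal(E/F), g (ϖ : E) := by
      rw [hP]
      simp
    have hPm : P ∈ maximalIdeal O := by
      rw [hP, ← Finset.mul_prod_erase Finset.univ _ (Finset.mem_univ (1 : Gal(E/F)))]
      apply Ideal.mul_mem_right
      have : (⟨(1 : Gal(E/F)) (ϖ : E), hstab 1 _ ϖ.2⟩ : O) = ϖ := Subtype.ext rfl
      rw [this, mem_maximalIdeal, mem_nonunits_iff]
      exact hϖ.not_isUnit
    have hP0 : (P : E) ≠ 0 := by
      rw [hPc]
      exact Finset.prod_ne_zero_iff.2 (fun g _ => by simpa using hϖ0)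
    have hPu : IsUnit P := by
      refine IsUnit.of_mul_eq_one (⟨(P : E)⁻¹, by rw [hPc]; exact hinv⟩ : O) ?_
      apply Subtype.ext
      simp [mul_inv_cancel₀ hP0]
    exact (mem_nonunits_iff.1 ((mem_maximalIdeal P).1 hPm)) hPu

end Fermat.Agent.S55.H713
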