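import Fermat.Agent.S55.H713.Lattice

/-!
# The filtration `W k = 1 + π^k M` of the unit group and the Galois maps on units
-/

set_option autoImplicit false
set_option linter.unusedSectionVars false

open IsLocalRing

namespace Fermat.Agent.S55.H713

variable {O : Type*} [CommRing O]
variable {G : Type*} [Group G] [MulSemiringAction G O]

section Action

/-- The action of `g` on units. -/
def actU (g : G) : Oˣ →* Oˣ :=
  Units.map ((MulSemiringAction.toRingHom G O g : O →+* O) : O →* O)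

@[simp] lemma coe_actU (g : G) (u : Oˣ) : ((actU g u : Oˣ) : O) = g • (u : O) := rfl

lemma actU_mul (g g' : G) (u : Oˣ) : actU (g * g') u = actU g (actU g' u) := by
  ext; simp [mul_smul]

lemma actU_one (u : Oˣ) : actU (1 : G) u = u := by
  ext; simp

variable [Fintype G]

/-- The norm on units. -/
noncomputable def normU (G : Type*) [Group G] [MulSemiringAction G O] [Fintype G] :
    Oˣ →* Oˣ := ∏ g : G, actU g

lemma normU_apply (u : Oˣ) : normU G u = ∏ g : G, actU g u := by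
  simp [normU]

lemma coe_normU (u : Oˣ) : ((normU G u : Oˣ) : O) = ∏ g : G, g • (u : O) := by
  rw [normU_apply, Units.coe_prod]; rfl

/-- `u ↦ σ u / u`. -/
def sigmaSubOne (σ : G) : Oˣ →* Oˣ := actU σ / MonoidHom.id _

lemma sigmaSubOne_apply (σ : G) (u : Oˣ) : sigmaSubOne σ u = actU σ u / u := rfl

lemma actU_normU (σ : G) (u : Oˣ) : actU σ (normU G u) = normU G u := by
  rw [normU_apply, map_prod]
  refine Fintype.prod_equiv (Equiv.mulLeft σ) _ _ (fun g => ?_)
  simp [actU_mul]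

lemma normU_actU (σ : G) (u : Oˣ) : normU G (actU σ u) = normU G u := by
  rw [normU_apply, normU_apply]
  refine Fintype.prod_equiv (Equiv.mulRight σ) _ _ (fun g => ?_)
  simp [actU_mul]

lemma sigmaSubOne_normU (σ : G) (u : Oˣ) : sigmaSubOne σ (normU G u) = 1 := by
  rw [sigmaSubOne_apply, actU_normU, div_self']

lemma normU_sigmaSubOne (σ : G) (u : Oˣ) : normU G (sigmaSubOne σ u) = 1 := by
  rw [sigmaSubOne_apply, map_div, normU_actU, div_self']

end Action


section Filtration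

variable [IsDomain O] [IsLocalRing O] [Fintype G]
variable {σ : G} {π : O} {M : AddSubgroup O}

namespace IsGoodLattice

variable (h : IsGoodLattice σ π M)
include h

lemma pow_mem_lat {k : ℕ} {x : O} (hx : x ∈ lat π M k) (i : ℕ) : x ^ (i + 1) ∈ lat π M k := by
  induction i with
  | zero => simpa using hx
  | succ i ih => rw [pow_succ]; exact h.lat_mul_lat_left ih hx

/-- If `u - 1 ∈ lat k` for a unit `u` then `u⁻¹ - 1 ∈ lat k`. -/
lemma inv_sub_one_mem {k : ℕ} (u : Oˣ) (hu : (u : O) - 1 ∈ lat π M k) :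
    ((u⁻¹ : Oˣ) : O) - 1 ∈ lat π M k := by
  obtain ⟨j, hj⟩ := h.isOpen k
  set x : O := 1 - (u : O) with hx
  have hxl : x ∈ lat π M k := by
    have : x = -((u : O) - 1) := by rw [hx]; ring
    rw [this]; exact (lat π M k).neg_mem hu
  have hxm : x ∈ maximalIdeal O := h.lat_le_max k x hxl
  have hgeom : (∑ i ∈ Finset.range (j + 1), x ^ i) * (u : O) = 1 - x ^ (j + 1) := by
    have h1 := geom_sum_mul x (j + 1)
    have : (u : O) = -(x - 1) := by rw [hx]; ring
    rw [this, mul_neg, h1]; ring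
  have hinv : ((u⁻¹ : Oˣ) : O) =
      (∑ i ∈ Finset.range (j + 1), x ^ i) + x ^ (j + 1) * ((u⁻¹ : Oˣ) : O) := by
    have h2 : (∑ i ∈ Finset.range (j + 1), x ^ i) * (u : O) * ((u⁻¹ : Oˣ) : O) =
        (1 - x ^ (j + 1)) * ((u⁻¹ : Oˣ) : O) := by rw [hgeom]
    rw [mul_assoc, Units.mul_inv, mul_one] at h2
    rw [h2]; ring
  have hsum : (∑ i ∈ Finset.range (j + 1), x ^ i) - 1 ∈ lat π M k := by
    rw [Finset.sum_range_succ', pow_zero, add_sub_cancel_right]
    exact (lat π M k).sum_mem (fun i _ => h.pow_mem_lat hxl i)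
  have htail : x ^ (j + 1) * ((u⁻¹ : Oˣ) : O) ∈ lat π M k := by
    apply hj
    apply Ideal.mul_mem_right
    exact Ideal.pow_le_pow_right (Nat.le_succ j) (Ideal.pow_mem_pow hxm (j + 1))
  have : ((u⁻¹ : Oˣ) : O) - 1 =
      ((∑ i ∈ Finset.range (j + 1), x ^ i) - 1) + x ^ (j + 1) * ((u⁻¹ : Oˣ) : O) := by
    nth_rewrite 1 [hinv]; ring
  rw [this]
  exact (lat π M k).add_mem hsum htail

/-- The subgroup `1 + π^k M` of `Oˣ`. -/
def W (k : ℕ) : Subgroup Oˣ where
  carrier := {u | (u : O) - 1 ∈ lat π M k}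
  one_mem' := by simp
  mul_mem' := by
    intro u v hu hv
    simp only [Set.mem_ofPred_eq, Units.val_mul] at hu hv ⊢
    have : (u : O) * v - 1 = ((u : O) - 1) + ((v : O) - 1) + ((u : O) - 1) * ((v : O) - 1) := by
      ring
    rw [this]
    exact (lat π M k).add_mem ((lat π M k).add_mem hu hv) (h.lat_mul_lat_left hu hv)
  inv_mem' := by
    intro u hu
    exact h.inv_sub_one_mem u hu

lemma mem_W {k : ℕ} {u : Oˣ} : u ∈ h.W k ↔ (u : O) - 1 ∈ lat π M k := Iff.rfl

lemma W_antitone : Antitone h.W := by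
  intro i j hij u hu
  exact h.lat_antitone hij hu

lemma W_le_zero (k : ℕ) : h.W k ≤ h.W 0 := h.W_antitone (Nat.zero_le k)

lemma sub_one_mem_M {k : ℕ} {u : Oˣ} (hu : u ∈ h.W k) : (u : O) - 1 ∈ M :=
  h.lat_le_M k hu

/-- Elements `1 + x`, `x ∈ lat k`, are units in `W k`. -/
lemma exists_unit {k : ℕ} {x : O} (hx : x ∈ lat π M k) : ∃ u ∈ h.W k, (u : O) = 1 + x := by
  have hu : IsUnit (1 + x) := by
    have := isUnit_one_sub_self_of_mem_nonunits (-x)
      (by rw [← mem_maximalIdeal]; exact neg_mem (h.lat_le_max k x hx))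
    simpa using this
  refine ⟨hu.unit, ?_, rfl⟩
  rw [mem_W]
  simpa using hx

lemma actU_mem_W (g : G) {k : ℕ} {u : Oˣ} (hu : u ∈ h.W k) : actU g u ∈ h.W k := by
  rw [mem_W] at hu ⊢
  have : ((actU g u : Oˣ) : O) - 1 = g • ((u : O) - 1) := by
    simp [smul_sub]
  rw [this]
  exact h.smul_mem_lat g hu

lemma normU_mem_W {k : ℕ} {u : Oˣ} (hu : u ∈ h.W k) : normU G u ∈ h.W k := by
  rw [normU_apply]
  exact Subgroup.prod_mem _ (fun g _ => h.actU_mem_W g hu)

lemma sigmaSubOne_mem_W {k : ℕ} {u : Oˣ} (hu : u ∈ h.W k) : sigmaSubOne σ u ∈ h.W k := by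
  rw [sigmaSubOne_apply]
  exact (h.W k).div_mem (h.actU_mem_W σ hu) hu

/-- `u / v - 1 ∈ lat k` as soon as `u - v ∈ lat k` and `v ∈ W 0`. -/
lemma div_mem_W {k : ℕ} {u v : Oˣ} (hv : v ∈ h.W 0) (huv : (u : O) - v ∈ lat π M k) :
    u / v ∈ h.W k := by
  rw [mem_W]
  have hvi : v⁻¹ ∈ h.W 0 := (h.W 0).inv_mem hv
  have : ((u / v : Oˣ) : O) - 1 = ((u : O) - v) * ((v⁻¹ : Oˣ) : O) := by
    rw [div_eq_mul_inv, Units.val_mul, sub_mul, Units.mul_inv]
  rw [this]
  exact h.lat_mul_one_add huv (h.sub_one_mem_M hvi)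

/-- Conversely. -/
lemma sub_mem_of_div_mem_W {k : ℕ} {u v : Oˣ} (hv : v ∈ h.W 0) (huv : u / v ∈ h.W k) :
    (u : O) - v ∈ lat π M k := by
  rw [mem_W] at huv
  have : (u : O) - v = (((u / v : Oˣ) : O) - 1) * (v : O) := by
    rw [div_eq_mul_inv, Units.val_mul, sub_mul, mul_assoc, Units.inv_mul, mul_one, one_mul]
  rw [this]
  exact h.lat_mul_one_add huv (h.sub_one_mem_M hv)

end IsGoodLattice

end Filtration

end Fermat.Agent.S55.H713
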