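import Fermat.Agent.S55.H713.GoodLattice
import Fermat.Agent.S55.H713.HerbrandSub

/-!
# The Herbrand quotient of the unit group of a Galois-stable complete DVR is `1`
-/

set_option autoImplicit false
set_option linter.unusedSectionVars false
set_option linter.style.haveILetI false

open IsLocalRing

namespace Fermat.Agent.S55.H713

open Fermat.Agent.S55.Herbrand

section General

variable {R : Type*} [CommRing R] {G : Type*} [Group G] [MulSemiringAction G R]

/-- `σ - 1` on units, additively. -/
def sigmaAdd (σ : G) : Additive Rˣ →+ Additive Rˣ := MonoidHom.toAdditive (sigmaSubOne σ)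

/-- the norm on units, additively. -/
noncomputable def normAdd (R G : Type*) [CommRing R] [Group G] [MulSemiringAction G R]
    [Fintype G] : Additive Rˣ →+ Additive Rˣ := MonoidHom.toAdditive (normU G)

lemma sigmaAdd_apply (σ : G) (u : Rˣ) :
    sigmaAdd σ (Additive.ofMul u) = Additive.ofMul (sigmaSubOne σ u) := rfl

lemma normAdd_apply [Fintype G] (u : Rˣ) :
    normAdd R G (Additive.ofMul u) = Additive.ofMul (normU G u) := rfl

lemma sigmaAdd_normAdd [Fintype G] (σ : G) (b : Additive Rˣ) :
    sigmaAdd σ (normAdd R G b) = 0 := by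
  change Additive.ofMul (sigmaSubOne σ (normU G b.toMul)) = 0
  rw [sigmaSubOne_normU]; rfl

lemma normAdd_sigmaAdd [Fintype G] (σ : G) (b : Additive Rˣ) :
    normAdd R G (sigmaAdd σ b) = 0 := by
  change Additive.ofMul (normU G (sigmaSubOne σ b.toMul)) = 0
  rw [normU_sigmaSubOne]; rfl

end General

section Index

variable {O : Type*} [CommRing O] [IsDomain O] [IsLocalRing O] [IsNoetherianRing O]
  [Finite (ResidueField O)]
variable {G : Type*} [Group G] [Fintype G] [MulSemiringAction G O]
variable {σ : G} {π : O} {M : AddSubgroup O}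

lemma IsGoodLattice.finiteIndex_W (h : IsGoodLattice σ π M) : (h.W 0).FiniteIndex := by
  obtain ⟨j, hj⟩ := h.isOpen 0
  haveI : Finite (O ⧸ maximalIdeal O) := ‹Finite (ResidueField O)›
  haveI : Finite (O ⧸ maximalIdeal O ^ j) :=
    Ideal.finite_quotient_pow (IsNoetherian.noetherian _) j
  let φ : Oˣ →* (O ⧸ maximalIdeal O ^ j)ˣ :=
    Units.map ((Ideal.Quotient.mk (maximalIdeal O ^ j) : O →+* _) : O →* _)
  haveI : φ.ker.FiniteIndex := inferInstance
  apply Subgroup.finiteIndex_of_le (H := φ.ker)
  intro u hu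
  rw [MonoidHom.mem_ker] at hu
  have h1 : (Ideal.Quotient.mk (maximalIdeal O ^ j)) (u : O) = 1 := by
    have := congrArg Units.val hu
    simpa [φ] using this
  rw [h.mem_W]
  apply hj
  rw [← Ideal.Quotient.eq_zero_iff_mem, map_sub, h1, map_one, sub_self]

end Index

variable {F E : Type*} [Field F] [Field E] [Algebra F E] [FiniteDimensional F E] [IsGalois F E]
variable {O : ValuationSubring E} [IsDiscreteValuationRing O]
  [IsAdicComplete (maximalIdeal O) O] [Finite (ResidueField O)]

/-- **The Herbrand quotient of the units** of a Galois-stable complete discrete valuation ring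
with finite residue field, for a cyclic Galois group, is defined and equal to `1`. -/
theorem q_units (hstab : GalStable F O) (σ : Gal(E/F)) (hσ : ∀ g, g ∈ Subgroup.zpowers σ) :
    letI := galAction hstab
    IsDefined (sigmaAdd σ : Additive Oˣ →+ Additive Oˣ) (normAdd O Gal(E/F)) ∧
      q (sigmaAdd σ : Additive Oˣ →+ Additive Oˣ) (normAdd O Gal(E/F)) = 1 := by
  let _ := galAction hstab
  obtain ⟨π, M, h⟩ := exists_goodLattice hstab σ hσ
  haveI := h.finiteIndex_W
  haveI : (Subgroup.toAddSubgroup (h.W 0)).FiniteIndex := by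
    rw [AddSubgroup.finiteIndex_iff, Subgroup.index_toAddSubgroup]
    exact Subgroup.FiniteIndex.index_ne_zero
  haveI : Finite (Additive Oˣ ⧸ Subgroup.toAddSubgroup (h.W 0)) :=
    AddSubgroup.finite_quotient_of_finiteIndex
  refine q_eq_one_of_exact_of_finite _ _ (sigmaAdd_normAdd σ) (normAdd_sigmaAdd σ)
    (Subgroup.toAddSubgroup (h.W 0)) ?_ ?_ ?_ ?_
  · intro a ha
    exact h.sigmaSubOne_mem_W ha
  · intro a ha
    exact h.normU_mem_W ha
  · intro a ha hfa
    obtain ⟨y, hy, hya⟩ := h.exists_normU_eq a.toMul ha (by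
      have : Additive.ofMul (sigmaSubOne σ a.toMul) = 0 := hfa
      exact this)
    exact ⟨Additive.ofMul y, hy, congrArg Additive.ofMul hya⟩
  · intro a ha hga
    obtain ⟨y, hy, hya⟩ := h.exists_sigmaSubOne_eq a.toMul ha (by
      have : Additive.ofMul (normU Gal(E/F) a.toMul) = 0 := hga
      exact this)
    exact ⟨Additive.ofMul y, hy, congrArg Additive.ofMul hya⟩

end Fermat.Agent.S55.H713
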